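import Mathlib
import Fermat.Agent.LT.H556.A0
import Fermat.Agent.LT.T5.Spec

/-!
# Row LT, tower T7, leaf T7.L2.1.P2 `FinProjC` -- local algebra (helper949)

OFF-MAIN.  Mathlib + A0 only.  The closure `𝔫 𝒪_v` of an ideal in the completion at `v` is an
`𝒪_v`-submodule of `𝒪_v`; the level group `U(𝔫)` and the group `GL₂(𝒪̂)` (trivial at infinity)
are subgroups of `GL₂(𝔸_K)`; `U(𝔫)` has finitely many cosets in `GL₂(𝒪̂)` for `𝔫 ≠ 0`.
(The density lemma is a renamed copy of `intRange_dense187` of helper187.)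
-/

set_option autoImplicit false

open IsDedekindDomain NumberField Topology
open Fermat.Agent.LT.H556.A0

noncomputable section

namespace Fermat.Agent.LT.T7.H949

variable {K : Type} [Field K] [NumberField K]

/-! ## 1. The closure of an ideal -/

/-- The map `𝓞 K → K_v`. -/
def loc949 (v : HeightOneSpectrum (𝓞 K)) : 𝓞 K →+* v.adicCompletion K :=
  (algebraMap K (v.adicCompletion K)).comp (algebraMap (𝓞 K) K)

theorem loc949_apply (v : HeightOneSpectrum (𝓞 K)) (a : 𝓞 K) :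
    loc949 v a = algebraMap K (v.adicCompletion K) (algebraMap (𝓞 K) K a) := rfl

theorem idealClosure_eq949 (𝔫 : Ideal (𝓞 K)) (v : HeightOneSpectrum (𝓞 K)) :
    idealClosure 𝔫 v = closure ((loc949 v) '' (𝔫 : Set (𝓞 K))) := rfl

theorem loc_mem_idealClosure949 (𝔫 : Ideal (𝓞 K)) (v : HeightOneSpectrum (𝓞 K)) {a : 𝓞 K}
    (ha : a ∈ 𝔫) : loc949 v a ∈ idealClosure 𝔫 v :=
  subset_closure ⟨a, ha, rfl⟩

theorem zero_mem_idealClosure949 (𝔫 : Ideal (𝓞 K)) (v : HeightOneSpectrum (𝓞 K)) :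
    (0 : v.adicCompletion K) ∈ idealClosure 𝔫 v := by
  have := loc_mem_idealClosure949 𝔫 v (zero_mem 𝔫)
  rwa [map_zero] at this

theorem add_mem_idealClosure949 (𝔫 : Ideal (𝓞 K)) (v : HeightOneSpectrum (𝓞 K))
    {x y : v.adicCompletion K} (hx : x ∈ idealClosure 𝔫 v) (hy : y ∈ idealClosure 𝔫 v) :
    x + y ∈ idealClosure 𝔫 v := by
  refine map_mem_closure₂ (f := fun a b : v.adicCompletion K => a + b) continuous_add hx hy ?_
  rintro _ ⟨a, ha, rfl⟩ _ ⟨b, hb, rfl⟩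
  exact ⟨a + b, 𝔫.add_mem ha hb, map_add (loc949 v) a b⟩

theorem neg_mem_idealClosure949 (𝔫 : Ideal (𝓞 K)) (v : HeightOneSpectrum (𝓞 K))
    {x : v.adicCompletion K} (hx : x ∈ idealClosure 𝔫 v) : -x ∈ idealClosure 𝔫 v := by
  refine map_mem_closure (f := fun a : v.adicCompletion K => -a) continuous_neg hx ?_
  rintro _ ⟨a, ha, rfl⟩
  exact ⟨-a, 𝔫.neg_mem ha, map_neg (loc949 v) a⟩

theorem sub_mem_idealClosure949 (𝔫 : Ideal (𝓞 K)) (v : HeightOneSpectrum (𝓞 K))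
    {x y : v.adicCompletion K} (hx : x ∈ idealClosure 𝔫 v) (hy : y ∈ idealClosure 𝔫 v) :
    x - y ∈ idealClosure 𝔫 v := by
  rw [sub_eq_add_neg]
  exact add_mem_idealClosure949 𝔫 v hx (neg_mem_idealClosure949 𝔫 v hy)

/-- `𝓞 K` is dense in `𝒪_v` (copy of `intRange_dense187`, helper187). -/
theorem intRange_dense949 (v : HeightOneSpectrum (𝓞 K)) {y : v.adicCompletion K}
    (hy : Valued.v y ≤ 1) :
    y ∈ closure (Set.range (loc949 v)) := by
  rw [mem_closure_iff_nhds]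
  intro t ht
  obtain ⟨γ, hγ⟩ := Valued.mem_nhds.1 ht
  have hne : MonoidWithZeroHom.ValueGroup₀.embedding γ.1 ≠ 0 := by
    intro h0
    simp at h0
  have hB : {z : v.adicCompletion K | Valued.v.restrict (z - y) < γ.1} ∈ 𝓝 y :=
    Valued.mem_nhds.2 ⟨γ, subset_rfl⟩
  have hO : ((v.adicCompletionIntegers K : Set (v.adicCompletion K))) ∈ 𝓝 y :=
    (Valued.isOpen_valuationSubring _).mem_nhds hy
  obtain ⟨z, ⟨hz1, hz2⟩, k, rfl⟩ :=
    mem_closure_iff_nhds.1 ((HeightOneSpectrum.denseRange_algebraMap K v) y) _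
      (Filter.inter_mem hB hO)
  have hk1 : v.valuation K k ≤ 1 := by
    rw [← HeightOneSpectrum.valuedAdicCompletion_eq_valuation']
    exact hz2
  have hk2 : Valued.v (algebraMap K (v.adicCompletion K) k - y)
      < MonoidWithZeroHom.ValueGroup₀.embedding γ.1 :=
    (Valuation.restrict_lt_iff_lt_embedding _).1 hz1
  obtain ⟨a, ha⟩ := v.exists_valuation_sub_lt_of_integer hk1 (Units.mk0 _ hne)
  refine ⟨algebraMap K (v.adicCompletion K) (algebraMap (𝓞 K) K a), hγ ?_, ⟨a, rfl⟩⟩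
  show Valued.v.restrict (algebraMap K (v.adicCompletion K) (algebraMap (𝓞 K) K a) - y) < γ.1
  rw [Valuation.restrict_lt_iff_lt_embedding]
  have e : algebraMap K (v.adicCompletion K) (algebraMap (𝓞 K) K a) - y
      = algebraMap K (v.adicCompletion K) (algebraMap (𝓞 K) K a - k)
        + (algebraMap K (v.adicCompletion K) k - y) := by
    rw [map_sub]; ring
  rw [e]
  refine lt_of_le_of_lt (Valuation.map_add _ _ _) (max_lt ?_ hk2)
  have := HeightOneSpectrum.valuedAdicCompletion_eq_valuation' v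
    (algebraMap (𝓞 K) K a - k)
  rw [Units.val_mk0] at ha
  exact this ▸ ha

/-- `𝒪_v · 𝔫 𝒪_v ⊆ 𝔫 𝒪_v`. -/
theorem mul_mem_idealClosure949 (𝔫 : Ideal (𝓞 K)) (v : HeightOneSpectrum (𝓞 K))
    {y x : v.adicCompletion K} (hy : Valued.v y ≤ 1) (hx : x ∈ idealClosure 𝔫 v) :
    y * x ∈ idealClosure 𝔫 v := by
  refine map_mem_closure₂ (f := fun a b : v.adicCompletion K => a * b) continuous_mul
    (intRange_dense949 v hy) hx ?_
  rintro _ ⟨a, rfl⟩ _ ⟨b, hb, rfl⟩
  exact ⟨a * b, 𝔫.mul_mem_left a hb, map_mul (loc949 v) a b⟩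

theorem mul_mem_idealClosure_right949 (𝔫 : Ideal (𝓞 K)) (v : HeightOneSpectrum (𝓞 K))
    {y x : v.adicCompletion K} (hx : x ∈ idealClosure 𝔫 v) (hy : Valued.v y ≤ 1) :
    x * y ∈ idealClosure 𝔫 v := by
  rw [mul_comm]
  exact mul_mem_idealClosure949 𝔫 v hy hx

/-- `𝔫 𝒪_v ⊆ 𝒪_v`. -/
theorem idealClosure_le_one949 (𝔫 : Ideal (𝓞 K)) (v : HeightOneSpectrum (𝓞 K))
    {x : v.adicCompletion K} (hx : x ∈ idealClosure 𝔫 v) : Valued.v x ≤ 1 := by
  have hcl : IsClosed ((v.adicCompletionIntegers K : Set (v.adicCompletion K))) :=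
    Valued.isClosed_valuationSubring _
  have hsub : (loc949 v) '' (𝔫 : Set (𝓞 K))
      ⊆ (v.adicCompletionIntegers K : Set (v.adicCompletion K)) := by
    rintro _ ⟨a, -, rfl⟩
    exact HeightOneSpectrum.coe_mem_adicCompletionIntegers v a
  exact closure_minimal hsub hcl hx

/-- At a place which does not divide `𝔫`: `𝔫 𝒪_v = 𝒪_v`. -/
theorem mem_idealClosure_of_not_dvd949 (𝔫 : Ideal (𝓞 K)) (v : HeightOneSpectrum (𝓞 K))
    (hv : ¬ v.asIdeal ∣ 𝔫) {x : v.adicCompletion K} (hx : Valued.v x ≤ 1) :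
    x ∈ idealClosure 𝔫 v := by
  have h1 : ¬ 𝔫 ≤ v.asIdeal := fun h => hv (Ideal.dvd_iff_le.2 h)
  obtain ⟨d, hd, hdv⟩ := Set.not_subset.1 h1
  have hval : Valued.v (loc949 v d) = 1 := by
    have e0 : Valued.v (loc949 v d) = v.valuation K (algebraMap (𝓞 K) K d) :=
      HeightOneSpectrum.valuedAdicCompletion_eq_valuation' v (algebraMap (𝓞 K) K d)
    rw [e0]
    exact (HeightOneSpectrum.valuation_eq_one_iff_notMem (K := K) (v := v)).2 hdv
  have hne : loc949 v d ≠ 0 := by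
    intro h0
    rw [h0, map_zero] at hval
    exact zero_ne_one hval
  have e : x = (x * (loc949 v d)⁻¹) * loc949 v d := by
    rw [mul_assoc, inv_mul_cancel₀ hne, mul_one]
  rw [e]
  refine mul_mem_idealClosure949 𝔫 v ?_ (loc_mem_idealClosure949 𝔫 v hd)
  rw [map_mul, map_inv₀, hval, inv_one, mul_one]
  exact hx

/-- Approximation: every element of `𝒪_v` is congruent to a global integer modulo `𝔫 𝒪_v`. -/
theorem exists_approx949 (𝔫 : Ideal (𝓞 K)) (h𝔫 : 𝔫 ≠ ⊥) (v : HeightOneSpectrum (𝓞 K))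
    {y : v.adicCompletion K} (hy : Valued.v y ≤ 1) :
    ∃ a : 𝓞 K, y - loc949 v a ∈ idealClosure 𝔫 v := by
  obtain ⟨d, hd, hd0⟩ := Submodule.exists_mem_ne_zero_of_ne_bot h𝔫
  have hdK : loc949 v d ≠ 0 := by
    intro h
    apply hd0
    have h1 : (algebraMap (𝓞 K) K d) = 0 := by
      have := (algebraMap K (v.adicCompletion K)).injective (a₁ := algebraMap (𝓞 K) K d)
        (a₂ := 0) (by rw [map_zero]; exact h)
      exact this
    exact (FaithfulSMul.algebraMap_injective (𝓞 K) K) (by rw [h1, map_zero])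
  -- the open set `y + d 𝒪_v`
  have hcont : Continuous (fun z : v.adicCompletion K => (loc949 v d)⁻¹ * (y - z)) :=
    continuous_const.mul (continuous_const.sub continuous_id)
  have hopen : IsOpen ((fun z : v.adicCompletion K => (loc949 v d)⁻¹ * (y - z)) ⁻¹'
      (v.adicCompletionIntegers K : Set (v.adicCompletion K))) :=
    (Valued.isOpen_valuationSubring _).preimage hcont
  have hmem : y ∈ ((fun z : v.adicCompletion K => (loc949 v d)⁻¹ * (y - z)) ⁻¹'
      (v.adicCompletionIntegers K : Set (v.adicCompletion K))) := by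
    show (loc949 v d)⁻¹ * (y - y) ∈ (v.adicCompletionIntegers K : Set (v.adicCompletion K))
    rw [sub_self, mul_zero]
    exact zero_mem _
  obtain ⟨z, hz, a, rfl⟩ := mem_closure_iff_nhds.1 (intRange_dense949 v hy) _
    (hopen.mem_nhds hmem)
  refine ⟨a, ?_⟩
  have e : y - loc949 v a = ((loc949 v d)⁻¹ * (y - loc949 v a)) * loc949 v d := by
    rw [mul_comm, ← mul_assoc, mul_inv_cancel₀ hdK, one_mul]
  rw [e]
  exact mul_mem_idealClosure949 𝔫 v hz (loc_mem_idealClosure949 𝔫 v hd)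

/-! ## 2. Components of products -/

/-- The component at the infinite place `w`, in the completion. -/
def infHomC949 (w : InfinitePlace K) : Adl K →+* w.Completion :=
  (Pi.evalRingHom (fun v : InfinitePlace K => v.Completion) w).comp
    (RingHom.fst (InfiniteAdeleRing K) (FiniteAdeleRing (𝓞 K) K))

/-- The matrix of `g` at the infinite place `w`, in the completion. -/
def infMat949 (w : InfinitePlace K) (g : G K) : Matrix (Fin 2) (Fin 2) w.Completion :=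
  (g : Matrix (Fin 2) (Fin 2) (Adl K)).map (infHomC949 w)

theorem trivAtInf_iff949 (w : InfinitePlace K) (g : G K) :
    TrivAtInf w g ↔ infMat949 w g = 1 := by
  constructor
  · intro h
    exact Matrix.ext fun i j => h i j
  · intro h i j
    exact congrFun (congrFun h i) j

theorem infMat_mul949 (w : InfinitePlace K) (g h : G K) :
    infMat949 w (g * h) = infMat949 w g * infMat949 w h := by
  unfold infMat949
  rw [Units.val_mul, Matrix.map_mul]

theorem infMat_one949 (w : InfinitePlace K) : infMat949 w (1 : G K) = 1 := by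
  unfold infMat949
  rw [Units.val_one, Matrix.map_one _ (map_zero _) (map_one _)]

theorem finComp_mul949 (v : HeightOneSpectrum (𝓞 K)) (g h : G K) :
    finComp v (g * h) = finComp v g * finComp v h := by
  rw [T5.finComp_eq_map, T5.finComp_eq_map, T5.finComp_eq_map, Units.val_mul, Matrix.map_mul]

theorem finComp_one949 (v : HeightOneSpectrum (𝓞 K)) : finComp v (1 : G K) = 1 := by
  rw [T5.finComp_eq_map, Units.val_one, Matrix.map_one _ (map_zero _) (map_one _)]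

theorem finComp_inv_mul949 (v : HeightOneSpectrum (𝓞 K)) (g : G K) :
    finComp v g⁻¹ * finComp v g = 1 := by
  rw [← finComp_mul949, inv_mul_cancel, finComp_one949]

theorem finComp_mul_inv949 (v : HeightOneSpectrum (𝓞 K)) (g : G K) :
    finComp v g * finComp v g⁻¹ = 1 := by
  rw [← finComp_mul949, mul_inv_cancel, finComp_one949]

theorem trivAtInf_mul949 {w : InfinitePlace K} {g h : G K} (hg : TrivAtInf w g)
    (hh : TrivAtInf w h) : TrivAtInf w (g * h) := by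
  rw [trivAtInf_iff949] at hg hh ⊢
  rw [infMat_mul949, hg, hh, one_mul]

theorem trivAtInf_one949 (w : InfinitePlace K) : TrivAtInf w (1 : G K) :=
  (trivAtInf_iff949 w 1).2 (infMat_one949 w)

theorem trivAtInf_inv949 {w : InfinitePlace K} {g : G K} (hg : TrivAtInf w g) :
    TrivAtInf w g⁻¹ := by
  rw [trivAtInf_iff949] at hg ⊢
  have h : infMat949 w g⁻¹ * infMat949 w g = 1 := by
    rw [← infMat_mul949, inv_mul_cancel, infMat_one949]
  rwa [hg, mul_one] at h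

theorem trivAtFin_inv949 {v : HeightOneSpectrum (𝓞 K)} {g : G K} (hg : TrivAtFin v g) :
    TrivAtFin v g⁻¹ := by
  unfold TrivAtFin at hg ⊢
  have h := finComp_inv_mul949 v g
  rwa [hg, mul_one] at h

theorem isIntegralAt_one949 (v : HeightOneSpectrum (𝓞 K)) : IsIntegralAt v (1 : G K) := by
  intro i j
  rw [finComp_one949]
  by_cases h : i = j
  · subst h
    rw [Matrix.one_apply_eq]
    exact one_mem _
  · rw [Matrix.one_apply_ne h]
    exact zero_mem _

theorem isIntegralAt_mul949 {v : HeightOneSpectrum (𝓞 K)} {g h : G K}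
    (hg : IsIntegralAt v g) (hh : IsIntegralAt v h) : IsIntegralAt v (g * h) := by
  intro i j
  rw [finComp_mul949, Matrix.mul_apply]
  exact sum_mem fun k _ => mul_mem (hg i k) (hh k j)

theorem isIntegralAt_of_trivAtFin949 {v : HeightOneSpectrum (𝓞 K)} {g : G K}
    (hg : TrivAtFin v g) : IsIntegralAt v g := by
  intro i j
  have h := isIntegralAt_one949 v i j
  rw [finComp_one949] at h
  unfold TrivAtFin at hg
  rwa [hg]

/-! ## 3. The groups -/

/-- `GL₂(𝒪̂)`, trivial at the infinite places. -/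
def K0949 (K : Type) [Field K] [NumberField K] : Subgroup (G K) where
  carrier := {g | (∀ w : InfinitePlace K, TrivAtInf w g) ∧
    ∀ v : HeightOneSpectrum (𝓞 K), IsIntegralAt v g ∧ IsIntegralAt v g⁻¹}
  mul_mem' := by
    rintro g h ⟨hg1, hg2⟩ ⟨hh1, hh2⟩
    refine ⟨fun w => trivAtInf_mul949 (hg1 w) (hh1 w), fun v => ⟨?_, ?_⟩⟩
    · exact isIntegralAt_mul949 (hg2 v).1 (hh2 v).1
    · rw [mul_inv_rev]
      exact isIntegralAt_mul949 (hh2 v).2 (hg2 v).2
  one_mem' := by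
    refine ⟨fun w => trivAtInf_one949 w, fun v => ⟨isIntegralAt_one949 v, ?_⟩⟩
    rw [inv_one]
    exact isIntegralAt_one949 v
  inv_mem' := by
    rintro g ⟨hg1, hg2⟩
    refine ⟨fun w => trivAtInf_inv949 (hg1 w), fun v => ⟨(hg2 v).2, ?_⟩⟩
    rw [inv_inv]
    exact (hg2 v).1

theorem mem_K0949 {g : G K} : g ∈ K0949 K ↔ (∀ w : InfinitePlace K, TrivAtInf w g) ∧
    ∀ v : HeightOneSpectrum (𝓞 K), IsIntegralAt v g ∧ IsIntegralAt v g⁻¹ := Iff.rfl

/-- The entries of a matrix congruent to `1` modulo `𝔫 𝒪_v` are integral. -/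
theorem integral_of_sub_one949 (𝔫 : Ideal (𝓞 K)) (v : HeightOneSpectrum (𝓞 K))
    {A : Matrix (Fin 2) (Fin 2) (v.adicCompletion K)}
    (hA : ∀ i j, (A - 1) i j ∈ idealClosure 𝔫 v) (i j : Fin 2) : Valued.v (A i j) ≤ 1 := by
  have e : A i j = (A - 1) i j + (1 : Matrix (Fin 2) (Fin 2) (v.adicCompletion K)) i j := by
    rw [Matrix.sub_apply, sub_add_cancel]
  rw [e]
  have h1 : Valued.v ((1 : Matrix (Fin 2) (Fin 2) (v.adicCompletion K)) i j) ≤ 1 := by
    by_cases h : i = j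
    · subst h
      rw [Matrix.one_apply_eq, map_one]
    · rw [Matrix.one_apply_ne h, map_zero]
      exact zero_le_one
  exact (Valuation.map_add _ _ _).trans (max_le (idealClosure_le_one949 𝔫 v (hA i j)) h1)

/-- Products of matrices congruent to `1` modulo `𝔫 𝒪_v`. -/
theorem mul_sub_one949 (𝔫 : Ideal (𝓞 K)) (v : HeightOneSpectrum (𝓞 K))
    {A B : Matrix (Fin 2) (Fin 2) (v.adicCompletion K)}
    (hA : ∀ i j, (A - 1) i j ∈ idealClosure 𝔫 v) (hB : ∀ i j, (B - 1) i j ∈ idealClosure 𝔫 v)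
    (i j : Fin 2) : (A * B - 1) i j ∈ idealClosure 𝔫 v := by
  have e : A * B - 1 = A * (B - 1) + (A - 1) := by
    rw [mul_sub, mul_one]
    abel
  rw [e, Matrix.add_apply, Matrix.mul_apply, Fin.sum_univ_two]
  refine add_mem_idealClosure949 𝔫 v (add_mem_idealClosure949 𝔫 v ?_ ?_) (hA i j)
  · exact mul_mem_idealClosure949 𝔫 v (integral_of_sub_one949 𝔫 v hA i 0) (hB 0 j)
  · exact mul_mem_idealClosure949 𝔫 v (integral_of_sub_one949 𝔫 v hA i 1) (hB 1 j)

/-- The level group `U(𝔫)` as a subgroup. -/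
def U949 (𝔫 : Ideal (𝓞 K)) : Subgroup (G K) where
  carrier := {u | InLevelGroup 𝔫 u}
  mul_mem' := by
    rintro g h ⟨hg1, hg2⟩ ⟨hh1, hh2⟩
    refine ⟨fun w => trivAtInf_mul949 (hg1 w) (hh1 w), fun v i j => ⟨?_, ?_⟩⟩
    · rw [finComp_mul949]
      exact mul_sub_one949 𝔫 v (fun i j => (hg2 v i j).1) (fun i j => (hh2 v i j).1) i j
    · rw [mul_inv_rev, finComp_mul949]
      exact mul_sub_one949 𝔫 v (fun i j => (hh2 v i j).2) (fun i j => (hg2 v i j).2) i j
  one_mem' := by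
    refine ⟨fun w => trivAtInf_one949 w, fun v i j => ?_⟩
    rw [inv_one, finComp_one949, sub_self]
    exact ⟨zero_mem_idealClosure949 𝔫 v, zero_mem_idealClosure949 𝔫 v⟩
  inv_mem' := by
    rintro g ⟨hg1, hg2⟩
    refine ⟨fun w => trivAtInf_inv949 (hg1 w), fun v i j => ⟨(hg2 v i j).2, ?_⟩⟩
    rw [inv_inv]
    exact (hg2 v i j).1

theorem mem_U949 {𝔫 : Ideal (𝓞 K)} {u : G K} : u ∈ U949 𝔫 ↔ InLevelGroup 𝔫 u := Iff.rfl

theorem U_le_K0949 (𝔫 : Ideal (𝓞 K)) : U949 𝔫 ≤ K0949 K := by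
  rintro u ⟨hu1, hu2⟩
  refine ⟨hu1, fun v => ⟨fun i j => ?_, fun i j => ?_⟩⟩
  · exact integral_of_sub_one949 𝔫 v (fun i j => (hu2 v i j).1) i j
  · exact integral_of_sub_one949 𝔫 v (fun i j => (hu2 v i j).2) i j

/-- The Iwahori elements along `o 0, …, o (l-1)` (the elements of `T7.IsIwInv`). -/
def iwSet949 (l : ℕ) (o : ℕ → HeightOneSpectrum (𝓞 K)) : Set (G K) :=
  {h | (∀ w : InfinitePlace K, TrivAtInf w h) ∧
    (∀ v : HeightOneSpectrum (𝓞 K), (∀ j < l, v ≠ o j) → TrivAtFin v h) ∧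
    ∀ j < l, T5.InIwahori (o j) h}

theorem iwSet_le_K0949 (l : ℕ) (o : ℕ → HeightOneSpectrum (𝓞 K)) :
    iwSet949 l o ⊆ (K0949 K : Set (G K)) := by
  rintro h ⟨h1, h2, h3⟩
  refine ⟨h1, fun v => ?_⟩
  by_cases hv : ∃ j < l, v = o j
  · obtain ⟨j, hj, rfl⟩ := hv
    exact ⟨(h3 j hj).1, (h3 j hj).2.1⟩
  · have hv' : ∀ j < l, v ≠ o j := fun j hj hvj => hv ⟨j, hj, hvj⟩
    exact ⟨isIntegralAt_of_trivAtFin949 (h2 v hv'),
      isIntegralAt_of_trivAtFin949 (trivAtFin_inv949 (h2 v hv'))⟩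

/-- The group `𝒦 = ⟨U(𝔑₀), I_o⟩`. -/
def KK949 (𝔑₀ : Ideal (𝓞 K)) (l : ℕ) (o : ℕ → HeightOneSpectrum (𝓞 K)) : Subgroup (G K) :=
  U949 𝔑₀ ⊔ Subgroup.closure (iwSet949 l o)

theorem KK_le_K0949 (𝔑₀ : Ideal (𝓞 K)) (l : ℕ) (o : ℕ → HeightOneSpectrum (𝓞 K)) :
    KK949 𝔑₀ l o ≤ K0949 K :=
  sup_le (U_le_K0949 𝔑₀) ((Subgroup.closure_le _).2 (iwSet_le_K0949 l o))

/-! ## 4. Finiteness of the index -/

/-- A subgroup has finitely many cosets as soon as a map to a finite set separates them. -/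
theorem finite_quot_of_map949 {Γ : Type*} [Group Γ] (H : Subgroup Γ) {T : Type*} [Finite T]
    (F : Γ → T) (hF : ∀ a b : Γ, F a = F b → a⁻¹ * b ∈ H) : Finite (Γ ⧸ H) := by
  classical
  let Gm : T → Γ ⧸ H := fun t =>
    if h : ∃ a, F a = t then (QuotientGroup.mk (Classical.choose h)) else QuotientGroup.mk 1
  refine Finite.of_surjective Gm ?_
  intro q
  obtain ⟨a, rfl⟩ := QuotientGroup.mk_surjective q
  refine ⟨F a, ?_⟩
  have h : ∃ b, F b = F a := ⟨a, rfl⟩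
  simp only [Gm, dif_pos h]
  exact QuotientGroup.eq.2 (hF _ _ (Classical.choose_spec h))

open Classical in
/-- The residue of an entry modulo `𝔫`. -/
def resid949 (𝔫 : Ideal (𝓞 K)) (h𝔫 : 𝔫 ≠ ⊥) (v : HeightOneSpectrum (𝓞 K))
    (y : v.adicCompletion K) : 𝓞 K ⧸ 𝔫 :=
  if h : Valued.v y ≤ 1 then Ideal.Quotient.mk 𝔫 (Classical.choose (exists_approx949 𝔫 h𝔫 v h))
  else 0

theorem sub_mem_of_resid_eq949 (𝔫 : Ideal (𝓞 K)) (h𝔫 : 𝔫 ≠ ⊥) (v : HeightOneSpectrum (𝓞 K))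
    {y y' : v.adicCompletion K} (hy : Valued.v y ≤ 1) (hy' : Valued.v y' ≤ 1)
    (h : resid949 𝔫 h𝔫 v y = resid949 𝔫 h𝔫 v y') : y - y' ∈ idealClosure 𝔫 v := by
  unfold resid949 at h
  rw [dif_pos hy, dif_pos hy'] at h
  have h1 := Classical.choose_spec (exists_approx949 𝔫 h𝔫 v hy)
  have h2 := Classical.choose_spec (exists_approx949 𝔫 h𝔫 v hy')
  set a := Classical.choose (exists_approx949 𝔫 h𝔫 v hy)
  set a' := Classical.choose (exists_approx949 𝔫 h𝔫 v hy')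
  have h3 : a - a' ∈ 𝔫 := (Ideal.Quotient.eq).1 h
  have h4 := loc_mem_idealClosure949 𝔫 v h3
  rw [map_sub] at h4
  have e : y - y' = (y - loc949 v a) + (loc949 v a - loc949 v a') - (y' - loc949 v a') := by
    ring
  rw [e]
  exact sub_mem_idealClosure949 𝔫 v (add_mem_idealClosure949 𝔫 v h1 h4) h2

/-- The residues of the entries of `g` at the places dividing `𝔫`. -/
def residMat949 (𝔫 : Ideal (𝓞 K)) (h𝔫 : 𝔫 ≠ ⊥) (g : G K) :
    {v : HeightOneSpectrum (𝓞 K) // v.asIdeal ∣ 𝔫} → Fin 2 → Fin 2 → 𝓞 K ⧸ 𝔫 :=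
  fun v i j => resid949 𝔫 h𝔫 v.1 (finComp v.1 g i j)

theorem finite_target949 (𝔫 : Ideal (𝓞 K)) (h𝔫 : 𝔫 ≠ ⊥) :
    Finite ({v : HeightOneSpectrum (𝓞 K) // v.asIdeal ∣ 𝔫} → Fin 2 → Fin 2 → 𝓞 K ⧸ 𝔫) := by
  have : Finite (𝓞 K ⧸ 𝔫) := Ideal.finiteQuotientOfFreeOfNeBot 𝔫 h𝔫
  have : Finite {v : HeightOneSpectrum (𝓞 K) // v.asIdeal ∣ 𝔫} :=
    (Ideal.finite_factors h𝔫).to_subtype
  infer_instance

/-- Matrices with the same residues at the places dividing `𝔫`. -/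
theorem inv_mul_sub_one949 (𝔫 : Ideal (𝓞 K)) (v : HeightOneSpectrum (𝓞 K))
    {A Ai B : Matrix (Fin 2) (Fin 2) (v.adicCompletion K)} (hAi : Ai * A = 1)
    (hint : ∀ i j, Valued.v (Ai i j) ≤ 1)
    (hd : ∀ i j, B i j - A i j ∈ idealClosure 𝔫 v) (i j : Fin 2) :
    (Ai * B - 1) i j ∈ idealClosure 𝔫 v := by
  have e : Ai * B - 1 = Ai * (B - A) := by
    rw [mul_sub, hAi]
  rw [e, Matrix.mul_apply, Fin.sum_univ_two]
  refine add_mem_idealClosure949 𝔫 v ?_ ?_
  · exact mul_mem_idealClosure949 𝔫 v (hint i 0) (by rw [Matrix.sub_apply]; exact hd 0 j)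
  · exact mul_mem_idealClosure949 𝔫 v (hint i 1) (by rw [Matrix.sub_apply]; exact hd 1 j)

theorem inv_mul_mem_U949 (𝔫 : Ideal (𝓞 K)) (h𝔫 : 𝔫 ≠ ⊥) {g g' : G K} (hg : g ∈ K0949 K)
    (hg' : g' ∈ K0949 K) (h : residMat949 𝔫 h𝔫 g = residMat949 𝔫 h𝔫 g') :
    g⁻¹ * g' ∈ U949 𝔫 := by
  have hK := (K0949 K).mul_mem ((K0949 K).inv_mem hg) hg'
  have hK' := (K0949 K).inv_mem hK
  refine ⟨hK.1, fun v i j => ?_⟩
  by_cases hv : v.asIdeal ∣ 𝔫
  · have hd : ∀ i j, finComp v g' i j - finComp v g i j ∈ idealClosure 𝔫 v := fun i j =>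
      sub_mem_of_resid_eq949 𝔫 h𝔫 v ((hg'.2 v).1 i j) ((hg.2 v).1 i j)
        (congrFun (congrFun (congrFun h ⟨v, hv⟩) i) j).symm
    have hd' : ∀ i j, finComp v g i j - finComp v g' i j ∈ idealClosure 𝔫 v := fun i j =>
      sub_mem_of_resid_eq949 𝔫 h𝔫 v ((hg.2 v).1 i j) ((hg'.2 v).1 i j)
        (congrFun (congrFun (congrFun h ⟨v, hv⟩) i) j)
    constructor
    · rw [finComp_mul949]
      exact inv_mul_sub_one949 𝔫 v (finComp_inv_mul949 v g) (hg.2 v).2 hd i j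
    · rw [mul_inv_rev, inv_inv, finComp_mul949]
      exact inv_mul_sub_one949 𝔫 v (finComp_inv_mul949 v g') (hg'.2 v).2 hd' i j
  · constructor
    · refine mem_idealClosure_of_not_dvd949 𝔫 v hv ?_
      rw [Matrix.sub_apply]
      refine (Valuation.map_sub _ _ _).trans (max_le ((hK.2 v).1 i j) ?_)
      have := isIntegralAt_one949 v i j
      rwa [finComp_one949] at this
    · refine mem_idealClosure_of_not_dvd949 𝔫 v hv ?_
      rw [Matrix.sub_apply]
      refine (Valuation.map_sub _ _ _).trans (max_le ((hK.2 v).2 i j) ?_)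
      have := isIntegralAt_one949 v i j
      rwa [finComp_one949] at this

/-- **Finiteness of the index**: `U(𝔫)` has finitely many cosets in every subgroup of
`GL₂(𝒪̂)`. -/
theorem finite_quot949 (𝔫 : Ideal (𝓞 K)) (h𝔫 : 𝔫 ≠ ⊥) (𝒦 : Subgroup (G K))
    (h𝒦 : 𝒦 ≤ K0949 K) : Finite (𝒦 ⧸ (U949 𝔫).subgroupOf 𝒦) := by
  have := finite_target949 𝔫 h𝔫
  refine finite_quot_of_map949 _ (fun k : 𝒦 => residMat949 𝔫 h𝔫 (k : G K)) ?_
  intro a b hab
  rw [Subgroup.mem_subgroupOf]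
  exact inv_mul_mem_U949 𝔫 h𝔫 (h𝒦 a.2) (h𝒦 b.2) hab

end Fermat.Agent.LT.T7.H949

end
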