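import Mathlib
import Fermat.Agent.LT.T1.Spec
import Fermat.Agent.LT.T7.H40.ProjSpec
import Fermat.Agent.LT.T7.H949.FinProjLocal

/-!
# Row LT, tower T7, leaf T7.L2.1.P2 `FinProjC` (registry row 2104, helper949)

OFF-MAIN.  `finProjC949 K : TranslInnerC K → T1.T1Out K → FinProjC K`, the Prop of
`LT/T7/H40/ProjSpec.lean` (helper40, sha256 ac5b80ed) VERBATIM, in the hypothesis-parametrised
form of the registry row.

## Proof

`𝒦 = ⟨U(𝔑₀), I_o⟩` is a subgroup of `GL₂(𝒪̂)` (trivial at infinity) which contains `U(𝔑)`;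
`U(𝔑)` has finitely many left cosets in `𝒦` (`finite_quot949`: residues of the entries at the
places dividing `𝔑`).  `ψ₁ = |Q|⁻¹ ∑_{q ∈ 𝒦 / U(𝔑)} ψ(· h_q)`.

* `ψ₁` is right invariant under `𝒦` (left multiplication permutes the cosets);
* the elements of `𝒦` are trivial at infinity, so they commute with the elements supported at
  the infinite places (`K_w`, the positive scalars, the ray generator);
* cuspidality: each translate has vanishing constant term; the terms are integrable because a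
  fundamental domain of `K` in `𝔸_K` has finite measure (`T1Out.addFundDom` and
  `IsAddFundamentalDomain.measure_eq`);
* orthogonality: `∫_F ψ(x h) χ̄(x) = ∫_F (ψ χ̄)(x h) = ∫_F ψ χ̄` for `χ` invariant under `𝒦`
  (`TranslInnerC`).
-/

set_option autoImplicit false
set_option linter.style.haveILetI false

open AutomorphicForm IsDedekindDomain NumberField MeasureTheory
open scoped ComplexConjugate

noncomputable section

namespace Fermat.Agent.LT.T7.H949

open Fermat.Agent.LT.H556 Fermat.Agent.LT.H556.A0 Fermat.Agent.LT.T7 Fermat.Agent.LT.T7.H40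

attribute [local instance] Fermat.Agent.LT.T5.instMeasurableSpaceG

variable {K : Type} [Field K] [NumberField K]

/-! ## 1. Extensionality and commutation -/

theorem G_ext949 {g g' : G K} (h1 : ∀ w : InfinitePlace K, infMat949 w g = infMat949 w g')
    (h2 : ∀ v : HeightOneSpectrum (𝓞 K), finComp v g = finComp v g') : g = g' := by
  apply Units.ext
  ext i j
  refine Prod.ext ?_ ?_
  · funext w
    exact congrFun (congrFun (h1 w) i) j
  · refine RestrictedProduct.ext _ _ fun v => ?_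
    exact congrFun (congrFun (h2 v) i) j

/-- An element which is trivial at infinity commutes with an element which is trivial at the
finite places. -/
theorem commute_of_triv949 {h k : G K} (hh : ∀ w : InfinitePlace K, TrivAtInf w h)
    (hk : ∀ v : HeightOneSpectrum (𝓞 K), TrivAtFin v k) : h * k = k * h := by
  refine G_ext949 (fun w => ?_) (fun v => ?_)
  · rw [infMat_mul949, infMat_mul949, (trivAtInf_iff949 w h).1 (hh w), one_mul, mul_one]
  · rw [finComp_mul949, finComp_mul949, (hk v : finComp v k = 1), one_mul, mul_one]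

/-! ## 2. The right stabiliser of a function -/

/-- The right stabiliser of a function. -/
def stab949 (χ : G K → ℂ) : Subgroup (G K) where
  carrier := {h | ∀ x, χ (x * h) = χ x}
  mul_mem' := by
    intro a b ha hb x
    rw [← mul_assoc, hb, ha]
  one_mem' := fun x => by rw [mul_one]
  inv_mem' := by
    intro a ha x
    have := ha (x * a⁻¹)
    rw [inv_mul_cancel_right] at this
    exact this.symm

theorem mem_stab949 {χ : G K → ℂ} {h : G K} : h ∈ stab949 χ ↔ ∀ x, χ (x * h) = χ x := Iff.rfl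

theorem KK_le_stab949 {𝔑₀ : Ideal (𝓞 K)} {l : ℕ} {o : ℕ → HeightOneSpectrum (𝓞 K)}
    {χ : G K → ℂ} (h1 : ∀ u : G K, InLevelGroup 𝔑₀ u → ∀ g : G K, χ (g * u) = χ g)
    (h2 : IsIwInv l o χ) : KK949 𝔑₀ l o ≤ stab949 χ := by
  refine sup_le (fun u hu => h1 u hu) ((Subgroup.closure_le _).2 ?_)
  rintro h ⟨ha, hb, hc⟩
  exact h2 h ha hb hc

/-! ## 3. The mean over the cosets -/

section Avg

variable (𝔑 : Ideal (𝓞 K)) (𝒦 : Subgroup (G K))

/-- The representatives of the cosets. -/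
def rep949 (q : 𝒦 ⧸ (U949 𝔑).subgroupOf 𝒦) : G K := ((Quotient.out q : 𝒦) : G K)

theorem rep_mem949 (q : 𝒦 ⧸ (U949 𝔑).subgroupOf 𝒦) : rep949 𝔑 𝒦 q ∈ 𝒦 := (Quotient.out q).2

theorem rep_smul949 (k : 𝒦) (q : 𝒦 ⧸ (U949 𝔑).subgroupOf 𝒦) :
    (rep949 𝔑 𝒦 (k • q))⁻¹ * ((k : G K) * rep949 𝔑 𝒦 q) ∈ U949 𝔑 := by
  have h1 : (QuotientGroup.mk (Quotient.out (k • q)) : 𝒦 ⧸ (U949 𝔑).subgroupOf 𝒦)
      = QuotientGroup.mk (k * Quotient.out q) := by
    rw [QuotientGroup.out_eq']
    conv_lhs => rw [← QuotientGroup.out_eq' q]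
    rw [MulAction.Quotient.smul_mk, smul_eq_mul]
  have h2 := QuotientGroup.eq.1 h1
  rw [Subgroup.mem_subgroupOf] at h2
  exact h2

variable [Fintype (𝒦 ⧸ (U949 𝔑).subgroupOf 𝒦)]

/-- The sum of the translates by the representatives. -/
def sumT949 (ψ : G K → ℂ) : G K → ℂ := fun x => ∑ q, ψ (x * rep949 𝔑 𝒦 q)

/-- The mean of the translates by the representatives. -/
def avg949 (ψ : G K → ℂ) : G K → ℂ := fun x =>
  ((Fintype.card (𝒦 ⧸ (U949 𝔑).subgroupOf 𝒦) : ℂ))⁻¹ * sumT949 𝔑 𝒦 ψ x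

theorem card_ne_zero949 : ((Fintype.card (𝒦 ⧸ (U949 𝔑).subgroupOf 𝒦) : ℂ)) ≠ 0 := by
  have : Nonempty (𝒦 ⧸ (U949 𝔑).subgroupOf 𝒦) := ⟨QuotientGroup.mk 1⟩
  exact Nat.cast_ne_zero.2 Fintype.card_ne_zero

/-- Left multiplication by an element of `𝒦` permutes the cosets. -/
theorem sumT_mul949 {ψ : G K → ℂ} (hψ : U949 𝔑 ≤ stab949 ψ) {k : G K} (hk : k ∈ 𝒦) (x : G K) :
    sumT949 𝔑 𝒦 ψ (x * k) = sumT949 𝔑 𝒦 ψ x := by
  unfold sumT949
  have h1 : ∀ q : 𝒦 ⧸ (U949 𝔑).subgroupOf 𝒦,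
      ψ (x * k * rep949 𝔑 𝒦 q) = ψ (x * rep949 𝔑 𝒦 ((⟨k, hk⟩ : 𝒦) • q)) := by
    intro q
    have hu := rep_smul949 𝔑 𝒦 ⟨k, hk⟩ q
    have := hψ hu (x * rep949 𝔑 𝒦 ((⟨k, hk⟩ : 𝒦) • q))
    rw [← this]
    congr 1
    group
  rw [Finset.sum_congr rfl (fun q _ => h1 q)]
  exact Fintype.sum_equiv (MulAction.toPerm (⟨k, hk⟩ : 𝒦)) _ _ (fun q => rfl)

theorem KK_le_stab_avg949 {ψ : G K → ℂ} (hψ : U949 𝔑 ≤ stab949 ψ) :
    𝒦 ≤ stab949 (avg949 𝔑 𝒦 ψ) := by
  intro k hk x
  unfold avg949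
  rw [sumT_mul949 𝔑 𝒦 hψ hk]

/-- Elements commuting with `𝒦` which stabilise `ψ` stabilise the mean. -/
theorem sumT_comm949 {ψ : G K → ℂ} {z : G K} (hz : ∀ h ∈ 𝒦, h * z = z * h)
    (hψ : ∀ g, ψ (g * z) = ψ g) (x : G K) : sumT949 𝔑 𝒦 ψ (x * z) = sumT949 𝔑 𝒦 ψ x := by
  unfold sumT949
  refine Finset.sum_congr rfl fun q _ => ?_
  rw [mul_assoc, ← hz _ (rep_mem949 𝔑 𝒦 q), ← mul_assoc, hψ]

theorem avg_comm949 {ψ : G K → ℂ} {z : G K} (hz : ∀ h ∈ 𝒦, h * z = z * h)
    (hψ : ∀ g, ψ (g * z) = ψ g) (x : G K) : avg949 𝔑 𝒦 ψ (x * z) = avg949 𝔑 𝒦 ψ x := by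
  unfold avg949
  rw [sumT_comm949 𝔑 𝒦 hz hψ]

theorem continuous_sumT949 {ψ : G K → ℂ} (hψ : Continuous ψ) : Continuous (sumT949 𝔑 𝒦 ψ) := by
  unfold sumT949
  exact continuous_finsetSum _ fun q _ => hψ.comp (continuous_mul_const _)

theorem continuous_avg949 {ψ : G K → ℂ} (hψ : Continuous ψ) : Continuous (avg949 𝔑 𝒦 ψ) :=
  continuous_const.mul (continuous_sumT949 𝔑 𝒦 hψ)

theorem bdd_avg949 {ψ : G K → ℂ} (hψ : ∃ C : ℝ, ∀ g : G K, ‖ψ g‖ ≤ C) :
    ∃ C : ℝ, ∀ g : G K, ‖avg949 𝔑 𝒦 ψ g‖ ≤ C := by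
  obtain ⟨C, hC⟩ := hψ
  refine ⟨‖((Fintype.card (𝒦 ⧸ (U949 𝔑).subgroupOf 𝒦) : ℂ))⁻¹‖
    * ∑ _q : 𝒦 ⧸ (U949 𝔑).subgroupOf 𝒦, C, fun g => ?_⟩
  unfold avg949 sumT949
  rw [norm_mul]
  refine mul_le_mul_of_nonneg_left ?_ (norm_nonneg _)
  exact (norm_sum_le _ _).trans (Finset.sum_le_sum fun q _ => hC _)

end Avg

/-! ## 4. Fundamental domains of `K` in `𝔸_K` have finite measure -/

theorem countable_numberField949 (K : Type) [Field K] [NumberField K] : Countable K := by
  have e := (Module.finBasis ℚ K).equivFun.toEquiv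
  exact Countable.of_equiv _ e.symm

theorem fundDom_finite949 (hT : Fermat.Agent.LT.T1.T1Out K) :
    letI : MeasurableSpace (Adl K) := borel (Adl K)
    ∀ μ : Measure (Adl K), μ.IsAddHaarMeasure → ∀ D : Set (Adl K),
      IsAddFundamentalDomain ((algebraMap K (Adl K)).toAddMonoidHom.range) D μ → μ D < ⊤ := by
  letI : MeasurableSpace (Adl K) := borel (Adl K)
  intro μ hμ D hD
  have : BorelSpace (Adl K) := ⟨rfl⟩
  obtain ⟨D₀, -, hD₀, -, -, hfin⟩ := hT.addFundDom μ hμ
  have hc : Countable K := countable_numberField949 K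
  have : Countable ((algebraMap K (Adl K)).toAddMonoidHom.range) := by
    have h1 : (Set.range (algebraMap K (Adl K))).Countable := Set.countable_range _
    exact h1.to_subtype
  have hinv : VAddInvariantMeasure ((algebraMap K (Adl K)).toAddMonoidHom.range) (Adl K) μ :=
    ⟨fun ⟨x, _⟩ _ h => VAddInvariantMeasure.measure_preimage_vadd (M := Adl K) x h⟩
  have := hD.measure_eq hD₀
  rw [this]
  exact hfin

/-- The unipotent map is continuous. -/
theorem continuous_unip949 (n : Adl K → G K)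
    (hn : ∀ x : Adl K, (n x : Matrix (Fin 2) (Fin 2) (Adl K)) = !![1, x; 0, 1]) :
    Continuous n := by
  have hinv : ∀ x : Adl K, (n x)⁻¹ = n (-x) := by
    intro x
    refine inv_eq_of_mul_eq_one_right ?_
    apply Units.ext
    rw [Units.val_mul, hn, hn, Units.val_one]
    ext i j
    fin_cases i <;> fin_cases j <;> simp [Matrix.mul_apply, Fin.sum_univ_two]
  rw [Units.continuous_iff]
  constructor
  · have h : (Units.val ∘ n)
        = fun u : Adl K => (!![1, u; 0, 1] : Matrix (Fin 2) (Fin 2) (Adl K)) := by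
      funext x
      exact hn x
    rw [h]
    refine continuous_matrix (fun i j => ?_)
    fin_cases i <;> fin_cases j
    · exact continuous_const
    · exact continuous_id
    · exact continuous_const
    · exact continuous_const
  · have h : (fun u : Adl K => (((n u)⁻¹ : G K) : Matrix (Fin 2) (Fin 2) (Adl K)))
        = fun u : Adl K => (!![1, -u; 0, 1] : Matrix (Fin 2) (Fin 2) (Adl K)) := by
      funext x
      rw [hinv, hn]
    rw [h]
    refine continuous_matrix (fun i j => ?_)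
    fin_cases i <;> fin_cases j
    · exact continuous_const
    · exact continuous_neg
    · exact continuous_const
    · exact continuous_const

/-- The terms of the constant term are integrable. -/
theorem integrableOn_unip949 (hT : Fermat.Agent.LT.T1.T1Out K) {ψ : G K → ℂ}
    (hc : Continuous ψ) (hb : ∃ C : ℝ, ∀ g : G K, ‖ψ g‖ ≤ C) :
    letI : MeasurableSpace (Adl K) := borel (Adl K)
    ∀ μ : Measure (Adl K), μ.IsAddHaarMeasure → ∀ D : Set (Adl K),
      IsAddFundamentalDomain ((algebraMap K (Adl K)).toAddMonoidHom.range) D μ →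
      ∀ n : Adl K → G K,
        (∀ x : Adl K, (n x : Matrix (Fin 2) (Fin 2) (Adl K)) = !![1, x; 0, 1]) →
        ∀ g : G K, IntegrableOn (fun x => ψ (n x * g)) D μ := by
  letI : MeasurableSpace (Adl K) := borel (Adl K)
  intro μ hμ D hD n hn g
  have : BorelSpace (Adl K) := ⟨rfl⟩
  obtain ⟨C, hC⟩ := hb
  have hfin : μ D < ⊤ := fundDom_finite949 hT μ hμ D hD
  have hcont : Continuous (fun x => ψ (n x * g)) :=
    hc.comp ((continuous_unip949 n hn).mul continuous_const)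
  have : IsFiniteMeasure (μ.restrict D) := ⟨by simpa using hfin⟩
  exact Integrable.of_bound hcont.aestronglyMeasurable C
    (Filter.Eventually.of_forall fun x => hC _)

/-! ## 5. The leaf -/

/-- **LEAF T7.L2.1.P2 = FIN-PROJ**, hypothesis-parametrised form. -/
theorem finProjC949 (K : Type) [Field K] [NumberField K] (hTI : TranslInnerC K)
    (hT : Fermat.Agent.LT.T1.T1Out K) : FinProjC K := by
  intro μ F r hFr hr 𝔑 𝔑₀ h𝔑 hle l o ψ hψ
  -- the groups
  set 𝒦 : Subgroup (G K) := KK949 𝔑₀ l o with h𝒦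
  have hK0 : 𝒦 ≤ K0949 K := KK_le_K0949 𝔑₀ l o
  have hfinq : Finite (𝒦 ⧸ (U949 𝔑).subgroupOf 𝒦) := finite_quot949 𝔑 h𝔑 𝒦 hK0
  letI : Fintype (𝒦 ⧸ (U949 𝔑).subgroupOf 𝒦) := Fintype.ofFinite _
  have hU0 : U949 𝔑₀ ≤ 𝒦 := le_sup_left
  have hIw : iwSet949 l o ⊆ (𝒦 : Set (G K)) := fun h hh =>
    (le_sup_right : Subgroup.closure (iwSet949 l o) ≤ 𝒦) (Subgroup.subset_closure hh)
  have hψU : U949 𝔑 ≤ stab949 ψ := fun u hu => hψ.aut.level_inv u hu
  have htriv : ∀ h ∈ 𝒦, ∀ w : InfinitePlace K, TrivAtInf w h := fun h hh => (hK0 hh).1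
  -- the mean
  set ψ₁ : G K → ℂ := avg949 𝔑 𝒦 ψ with hψ₁
  have hstab : 𝒦 ≤ stab949 ψ₁ := KK_le_stab_avg949 𝔑 𝒦 hψU
  have hcomm : ∀ z : G K, (∀ v : HeightOneSpectrum (𝓞 K), TrivAtFin v z) →
      ∀ h ∈ 𝒦, h * z = z * h := fun z hz h hh => commute_of_triv949 (htriv h hh) hz
  have hcusp₁ : T5.IsCuspFn 𝔑₀ T5.trivType r ψ₁ := by
    refine ⟨continuous_avg949 𝔑 𝒦 hψ.cont, bdd_avg949 𝔑 𝒦 hψ.bdd, ⟨?_, ?_, ?_, ?_⟩, ?_⟩
    · intro γ g
      show avg949 𝔑 𝒦 ψ _ = avg949 𝔑 𝒦 ψ _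
      unfold avg949 sumT949
      congr 1
      refine Finset.sum_congr rfl fun q _ => ?_
      rw [mul_assoc, hψ.aut.left_inv]
    · intro u hu g
      exact hstab (hU0 hu) g
    · intro w k hk g
      have h1 : ∀ g, ψ (g * k) = ψ g := fun g => by
        have := hψ.aut.arch_compact w k hk g
        rwa [T5.trivType, one_mul] at this
      show avg949 𝔑 𝒦 ψ _ = T5.trivType k * avg949 𝔑 𝒦 ψ _
      rw [T5.trivType, one_mul]
      exact avg_comm949 𝔑 𝒦 (hcomm k hk.1.2) h1 g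
    · intro g
      exact avg_comm949 𝔑 𝒦 (hcomm r hr.1) hψ.aut.ray g
    · -- cuspidality
      intro μ' hμ' D hD n hn g
      have hint := integrableOn_unip949 hT hψ.cont hψ.bdd μ' hμ' D hD n hn
      have e : (fun x => ψ₁ (n x * g))
          = fun x => ((Fintype.card (𝒦 ⧸ (U949 𝔑).subgroupOf 𝒦) : ℂ))⁻¹
              * ∑ q, ψ (n x * (g * rep949 𝔑 𝒦 q)) := by
        funext x
        show avg949 𝔑 𝒦 ψ _ = _
        unfold avg949 sumT949
        congr 1
        refine Finset.sum_congr rfl fun q _ => ?_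
        rw [mul_assoc]
      rw [e, integral_const_mul, integral_finsetSum _ (fun q _ => hint _)]
      rw [Finset.sum_eq_zero (fun q _ => hψ.cuspidal μ' hμ' D hD n hn _), mul_zero]
  refine ⟨ψ₁, hcusp₁, ?_, ?_, ?_⟩
  · -- Iwahori invariance
    intro h ha hb hc x
    exact hstab (hIw ⟨ha, hb, hc⟩) x
  · -- positive scalars
    intro hpos w z hz g
    exact avg_comm949 𝔑 𝒦 (hcomm z hz.1.2) (hpos w z hz) g
  · -- orthogonality
    intro χ hχ hχiw
    have hχstab : 𝒦 ≤ stab949 χ := KK_le_stab949 hχ.aut.level_inv hχiw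
    have : BorelSpace (G K) := ⟨rfl⟩
    have : IsFiniteMeasure (μ.restrict F) := ⟨by simpa using hFr.finite⟩
    obtain ⟨Cψ, hCψ⟩ := hψ.bdd
    obtain ⟨Cχ, hCχ⟩ := hχ.bdd
    have hCψ0 : 0 ≤ Cψ := (norm_nonneg _).trans (hCψ 1)
    -- integrability of the translates
    have hint : ∀ h : G K, Integrable (fun x => ψ (x * h) * conj (χ x)) (μ.restrict F) := by
      intro h
      refine Integrable.of_bound (C := Cψ * Cχ) ?_ (Filter.Eventually.of_forall fun x => ?_)
      · exact ((hψ.cont.comp (continuous_mul_const h)).mul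
          (Complex.continuous_conj.comp hχ.cont)).aestronglyMeasurable
      · rw [norm_mul, RCLike.norm_conj]
        exact mul_le_mul (hCψ _) (hCχ _) (norm_nonneg _) hCψ0
    -- the translates have the same inner product
    have htr : ∀ q : 𝒦 ⧸ (U949 𝔑).subgroupOf 𝒦,
        ∫ x in F, ψ (x * rep949 𝔑 𝒦 q) * conj (χ x) ∂μ = ∫ x in F, ψ x * conj (χ x) ∂μ := by
      intro q
      have h1 := hTI μ F r hFr hr (fun x => ψ x * conj (χ x))
        (hψ.cont.mul (Complex.continuous_conj.comp hχ.cont))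
        ⟨Cψ * Cχ, fun g => by
          rw [norm_mul, RCLike.norm_conj]
          exact mul_le_mul (hCψ _) (hCχ _) (norm_nonneg _) hCψ0⟩
        (fun γ g => by
          show ψ _ * conj (χ _) = _
          rw [hψ.aut.left_inv, hχ.aut.left_inv])
        (fun g => by
          show ψ _ * conj (χ _) = _
          rw [hψ.aut.ray, hχ.aut.ray])
        (rep949 𝔑 𝒦 q)
      rw [← h1]
      refine integral_congr_ae (Filter.Eventually.of_forall fun x => ?_)
      show ψ _ * conj (χ x) = ψ _ * conj (χ _)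
      rw [hχstab (rep_mem949 𝔑 𝒦 q) x]
    have e1 : ∫ x in F, ψ₁ x * conj (χ x) ∂μ = ∫ x in F, ψ x * conj (χ x) ∂μ := by
      have e : (fun x => ψ₁ x * conj (χ x))
          = fun x => ((Fintype.card (𝒦 ⧸ (U949 𝔑).subgroupOf 𝒦) : ℂ))⁻¹
              * ∑ q, ψ (x * rep949 𝔑 𝒦 q) * conj (χ x) := by
        funext x
        show avg949 𝔑 𝒦 ψ _ * _ = _
        unfold avg949 sumT949
        rw [mul_assoc, Finset.sum_mul]
      rw [e, integral_const_mul, integral_finsetSum _ (fun q _ => hint _),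
        Finset.sum_congr rfl (fun q _ => htr q), Finset.sum_const, Finset.card_univ,
        nsmul_eq_mul, ← mul_assoc, inv_mul_cancel₀ (card_ne_zero949 𝔑 𝒦), one_mul]
    unfold T5.innerD
    have e2 : (fun x => (ψ x - ψ₁ x) * conj (χ x))
        = fun x => ψ x * conj (χ x) - ψ₁ x * conj (χ x) := by
      funext x
      ring
    have hint1 : Integrable (fun x => ψ x * conj (χ x)) (μ.restrict F) := by
      have := hint 1
      simpa using this
    have hint2 : Integrable (fun x => ψ₁ x * conj (χ x)) (μ.restrict F) := by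
      obtain ⟨C₁, hC₁⟩ := hcusp₁.bdd
      have hC₁0 : 0 ≤ C₁ := (norm_nonneg _).trans (hC₁ 1)
      refine Integrable.of_bound (C := C₁ * Cχ) ?_ (Filter.Eventually.of_forall fun x => ?_)
      · exact (hcusp₁.cont.mul (Complex.continuous_conj.comp hχ.cont)).aestronglyMeasurable
      · rw [norm_mul, RCLike.norm_conj]
        exact mul_le_mul (hC₁ _) (hCχ _) (norm_nonneg _) hC₁0
    rw [e2, integral_sub hint1 hint2, e1, sub_self]

end Fermat.Agent.LT.T7.H949

end
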