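import Mathlib
import Fermat.Agent.LT.T7.H37.ThinSpec

/-!
# Row LT, tower T7, leaf T7.13h `NonconstFC` (helper949), OFF-MAIN

Registry row 1274.  Spec bytes: `LT/T7/H37/ThinSpec.lean` of `origin/helper37@8584ef06e`
(sha256 `4c697dce71c28f9b…`), on `LT/T7/Spec.lean` (sha256 `76a196044a64b920…`).

`nonconstFC949 : H37.NonconstFC`: a horocycle family over `K` (class number one) with a non-zero
value and `|A v| ≤ 2`, `|B v| ≤ 1` almost everywhere has a member which is not constant in `z`.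

Proof.  Otherwise `U κ z y = U κ 0 y`.  Take a rational prime `p ≥ 7` larger than
`M · ∏_{w ∈ S} N w` and a place `v ∣ p`: then `v ∉ S`, `v ∤ M`, `n = N v ≥ 7`; `v = (ϖ)`, `R` a
system of residues modulo `ϖ` with `n` elements.  The Hecke relation at `(κ [ϖ]⁻¹, 0, |e ϖ| y)`
reads `n · U κ 0 y = √n · A v · U (κ [ϖ]⁻¹) 0 (|e ϖ| y) - B v · U (κ [ϖ]⁻²) 0 (|e ϖ|² y)`, so a
bound `|U · 0 ·| ≤ t` improves to `q t`, `q = (2 √n + 1) / n < 1`.  Iterating from the bound `C`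
gives `U = 0`.
-/

set_option autoImplicit false

open IsDedekindDomain NumberField

noncomputable section

namespace Fermat.Agent.LT.T7.H949

open Fermat.Agent.LT.T7 Fermat.Agent.LT.T7.H37

/-- A prime number in a finite place divides its absolute norm. -/
theorem prime_dvd_absNorm949 {K : Type} [Field K] [NumberField K] (v : HeightOneSpectrum (𝓞 K))
    {p : ℕ} (hp : p.Prime) (hpv : ((p : ℕ) : 𝓞 K) ∈ v.asIdeal) :
    p ∣ Ideal.absNorm v.asIdeal := by
  by_contra hnd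
  have hcop : Nat.Coprime p (Ideal.absNorm v.asIdeal) := (Nat.Prime.coprime_iff_not_dvd hp).mpr hnd
  have hc : IsCoprime ((p : ℕ) : 𝓞 K) ((Ideal.absNorm v.asIdeal : ℕ) : 𝓞 K) :=
    Nat.Coprime.cast hcop
  obtain ⟨a, b, hab⟩ := hc
  have hn : ((Ideal.absNorm v.asIdeal : ℕ) : 𝓞 K) ∈ v.asIdeal := Ideal.absNorm_mem v.asIdeal
  have h1 : (1 : 𝓞 K) ∈ v.asIdeal := by
    rw [← hab]
    exact v.asIdeal.add_mem (v.asIdeal.mul_mem_left a hpv) (v.asIdeal.mul_mem_left b hn)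
  exact v.isPrime.ne_top ((Ideal.eq_top_iff_one _).mpr h1)

/-- Over every prime number there is a finite place. -/
theorem exists_place_over_prime949 (K : Type) [Field K] [NumberField K] {p : ℕ} (hp : p.Prime) :
    ∃ v : HeightOneSpectrum (𝓞 K), ((p : ℕ) : 𝓞 K) ∈ v.asIdeal := by
  have : Fact p.Prime := ⟨hp⟩
  have hmax : (Ideal.span {(p : ℤ)}).IsMaximal := Int.ideal_span_isMaximal_of_prime p
  have hprime : (Ideal.span {(p : ℤ)}).IsPrime := hmax.isPrime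
  obtain ⟨⟨Q, hQp, hQo⟩⟩ :=
    (inferInstance : Nonempty (Ideal.primesOver (Ideal.span {(p : ℤ)}) (𝓞 K)))
  have hmem : ((p : ℕ) : 𝓞 K) ∈ Q := by
    have h1 : (p : ℤ) ∈ Q.under ℤ := by
      rw [← Ideal.over_def Q (Ideal.span {(p : ℤ)})]
      exact Ideal.subset_span rfl
    have h2 : algebraMap ℤ (𝓞 K) (p : ℤ) ∈ Q := h1
    simpa using h2
  have hQne : Q ≠ ⊥ := by
    rintro rfl
    have h0 : ((p : ℕ) : 𝓞 K) = 0 := by simpa using hmem
    have h0' : (p : ℕ) = 0 := by exact_mod_cast h0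
    exact hp.ne_zero h0'
  exact ⟨⟨Q, hQp, hQne⟩, hmem⟩

/-- A complete system of residues modulo a generator of a finite place, with `N v` elements. -/
theorem exists_resSys949 (K : Type) [Field K] [NumberField K] (v : HeightOneSpectrum (𝓞 K))
    (ϖ : 𝓞 K) (hϖ : v.asIdeal = Ideal.span {ϖ}) :
    ∃ R : Finset (𝓞 K), IsResSys K ϖ R ∧ R.card = Ideal.absNorm v.asIdeal := by
  classical
  have hfin : Finite (𝓞 K ⧸ v.asIdeal) := Ideal.finiteQuotientOfFreeOfNeBot v.asIdeal v.ne_bot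
  let _ : Fintype (𝓞 K ⧸ v.asIdeal) := Fintype.ofFinite _
  refine ⟨Finset.univ.image (fun a : 𝓞 K ⧸ v.asIdeal => Quotient.out a), ⟨?_, ?_⟩, ?_⟩
  · intro x
    refine ⟨Quotient.out (Ideal.Quotient.mk v.asIdeal x),
      Finset.mem_image_of_mem _ (Finset.mem_univ _), ?_⟩
    rw [← Ideal.mem_span_singleton, ← hϖ, ← Ideal.Quotient.eq]
    exact (Ideal.Quotient.mk_out _).symm
  · intro j hj j' hj' hdvd
    obtain ⟨a, -, rfl⟩ := Finset.mem_image.mp hj
    obtain ⟨b, -, rfl⟩ := Finset.mem_image.mp hj'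
    have hmem : Quotient.out a - Quotient.out b ∈ Ideal.span {ϖ} :=
      Ideal.mem_span_singleton.mpr hdvd
    rw [← hϖ] at hmem
    have h : Ideal.Quotient.mk v.asIdeal (Quotient.out a)
        = Ideal.Quotient.mk v.asIdeal (Quotient.out b) := Ideal.Quotient.eq.mpr hmem
    rw [Ideal.Quotient.mk_out, Ideal.Quotient.mk_out] at h
    rw [h]
  · rw [Finset.card_image_of_injective Finset.univ
        (f := fun a : 𝓞 K ⧸ v.asIdeal => Quotient.out a)
        (fun a b h => Quotient.out_injective h),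
      Finset.card_univ, ← Nat.card_eq_fintype_card, Ideal.absNorm_apply,
      Submodule.cardQuot_apply]

/-- `2 √n + 1 < n` for `n ≥ 7`. -/
theorem sqrt_bound949 {n : ℝ} (hn : 7 ≤ n) : 2 * Real.sqrt n + 1 < n := by
  have hx0 : 0 ≤ Real.sqrt n := Real.sqrt_nonneg n
  have hxx : Real.sqrt n * Real.sqrt n = n := Real.mul_self_sqrt (by linarith)
  by_contra hcon
  rw [not_lt] at hcon
  have h3 : 3 ≤ Real.sqrt n := by linarith
  have h4 : 3 * Real.sqrt n ≤ Real.sqrt n * Real.sqrt n := by nlinarith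
  linarith

/-- **Leaf T7.13h NONCONST** (`H37.NonconstFC`, VERBATIM). -/
theorem nonconstFC949 : NonconstFC := by
  classical
  intro K _ _ hpid e M A B U C hD hsmall hnz
  obtain ⟨S, hS⟩ := hsmall
  obtain ⟨κ₀, z₀, y₀, hy₀, hne⟩ := hnz
  by_contra hcon
  push Not at hcon
  -- the auxiliary place
  set N : ℕ := M * ∏ w ∈ S, Ideal.absNorm w.asIdeal with hN
  have hprod_pos : 0 < ∏ w ∈ S, Ideal.absNorm w.asIdeal := by
    refine Finset.prod_pos fun w _ => ?_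
    exact Nat.pos_of_ne_zero fun h => w.ne_bot (Ideal.absNorm_eq_zero_iff.mp h)
  have hNpos : 0 < N := Nat.mul_pos hD.M_pos hprod_pos
  obtain ⟨p, hpge, hp⟩ := Nat.exists_infinite_primes (max 7 (N + 1))
  have hp7 : 7 ≤ p := le_trans (le_max_left _ _) hpge
  have hpN : N < p := lt_of_lt_of_le (Nat.lt_succ_self N) (le_trans (le_max_right _ _) hpge)
  have hpndN : ¬ p ∣ N := Nat.not_dvd_of_pos_of_lt hNpos hpN
  obtain ⟨v, hpv⟩ := exists_place_over_prime949 K hp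
  have hpn : p ∣ Ideal.absNorm v.asIdeal := prime_dvd_absNorm949 v hp hpv
  have hn0 : Ideal.absNorm v.asIdeal ≠ 0 := fun h => v.ne_bot (Ideal.absNorm_eq_zero_iff.mp h)
  have hn7 : 7 ≤ Ideal.absNorm v.asIdeal :=
    le_trans hp7 (Nat.le_of_dvd (Nat.pos_of_ne_zero hn0) hpn)
  have hvS : v ∉ S := by
    intro hv
    have h1 : Ideal.absNorm v.asIdeal ∣ ∏ w ∈ S, Ideal.absNorm w.asIdeal :=
      Finset.dvd_prod_of_mem (fun w : HeightOneSpectrum (𝓞 K) => Ideal.absNorm w.asIdeal) hv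
    exact hpndN (dvd_trans hpn (dvd_trans h1 (Dvd.intro_left M rfl)))
  have hMv : ((M : ℕ) : 𝓞 K) ∉ v.asIdeal := by
    intro hM
    have hpM : ¬ p ∣ M := fun h => hpndN (dvd_trans h (Dvd.intro _ rfl))
    have hcop : Nat.Coprime p M := (Nat.Prime.coprime_iff_not_dvd hp).mpr hpM
    have hc : IsCoprime ((p : ℕ) : 𝓞 K) ((M : ℕ) : 𝓞 K) := Nat.Coprime.cast hcop
    obtain ⟨a, b, hab⟩ := hc
    have h1 : (1 : 𝓞 K) ∈ v.asIdeal := by
      rw [← hab]
      exact v.asIdeal.add_mem (v.asIdeal.mul_mem_left a hpv) (v.asIdeal.mul_mem_left b hM)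
    exact v.isPrime.ne_top ((Ideal.eq_top_iff_one _).mpr h1)
  obtain ⟨hAv, hBv⟩ := hS v hvS
  -- the generator and the residues
  obtain ⟨ϖ, hϖ'⟩ := (IsPrincipalIdealRing.principal v.asIdeal).principal
  have hϖ : v.asIdeal = Ideal.span {ϖ} := hϖ'
  obtain ⟨R, hR, hRcard⟩ := exists_resSys949 K v ϖ hϖ
  have hϖ0 : ϖ ≠ 0 := by
    rintro rfl
    apply v.ne_bot
    rw [hϖ]
    simp
  have heϖ : e (ϖ : K) ≠ 0 := by
    intro h
    have h1 : (ϖ : K) = 0 := (map_eq_zero e).mp h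
    exact hϖ0 (by exact_mod_cast h1)
  set r : ℝ := ‖e (ϖ : K)‖ with hr
  have hrpos : 0 < r := norm_pos_iff.mpr heϖ
  set n : ℝ := ((Ideal.absNorm v.asIdeal : ℕ) : ℝ) with hn
  have hn7' : (7 : ℝ) ≤ n := by
    rw [hn]
    exact_mod_cast hn7
  have hnpos : 0 < n := by linarith
  have hnrm : nrm v = n := rfl
  set c := unitClsF K M ϖ with hc
  -- the improvement step
  have hstep : ∀ t : ℝ, (∀ κ y, 0 < y → ‖U κ 0 y‖ ≤ t) →
      ∀ κ y, 0 < y → n * ‖U κ 0 y‖ ≤ (2 * Real.sqrt n + 1) * t := by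
    intro t ht κ y hy
    have ht0 : 0 ≤ t := le_trans (norm_nonneg _) (ht κ y hy)
    have hyr : 0 < y * r := mul_pos hy hrpos
    have hH := hD.hecke v ϖ hϖ hMv R hR (κ * c⁻¹) 0 (y * r) hyr
    have hκ : κ * c⁻¹ * c = κ := by group
    have hy' : y * r / r = y := by field_simp
    have hsum : ∑ j ∈ R, U (κ * c⁻¹ * c) ((0 + (M : ℂ) * e (j : K)) / e (ϖ : K)) (y * r / r)
        = (n : ℂ) * U κ 0 y := by
      rw [hκ, hy']
      rw [Finset.sum_congr rfl fun j _ => hcon κ _ 0 y hy]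
      rw [Finset.sum_const, hRcard, nsmul_eq_mul, hn]
      push_cast
      ring
    rw [hsum] at hH
    have hz : U (κ * c⁻¹ * c⁻¹) (e (ϖ : K) * 0) (r * (y * r))
        = U (κ * c⁻¹ * c⁻¹) 0 (r * (y * r)) := by
      rw [mul_zero]
    rw [hz, hnrm] at hH
    have hb1 : ‖U (κ * c⁻¹ * c⁻¹) 0 (r * (y * r))‖ ≤ t := ht _ _ (mul_pos hrpos hyr)
    have hb2 : ‖U (κ * c⁻¹) 0 (y * r)‖ ≤ t := ht _ _ hyr
    have heq : (n : ℂ) * U κ 0 y = ((Real.sqrt n : ℝ) : ℂ) * A v * U (κ * c⁻¹) 0 (y * r)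
        - B v * U (κ * c⁻¹ * c⁻¹) 0 (r * (y * r)) := by
      rw [← hH]
      ring
    have hnorm : ‖(n : ℂ) * U κ 0 y‖ = n * ‖U κ 0 y‖ := by
      rw [norm_mul, Complex.norm_real, Real.norm_of_nonneg hnpos.le]
    rw [← hnorm, heq]
    have hs0 : 0 ≤ Real.sqrt n := Real.sqrt_nonneg n
    calc ‖((Real.sqrt n : ℝ) : ℂ) * A v * U (κ * c⁻¹) 0 (y * r)
          - B v * U (κ * c⁻¹ * c⁻¹) 0 (r * (y * r))‖
        ≤ ‖((Real.sqrt n : ℝ) : ℂ) * A v * U (κ * c⁻¹) 0 (y * r)‖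
          + ‖B v * U (κ * c⁻¹ * c⁻¹) 0 (r * (y * r))‖ := norm_sub_le _ _
      _ = Real.sqrt n * ‖A v‖ * ‖U (κ * c⁻¹) 0 (y * r)‖
          + ‖B v‖ * ‖U (κ * c⁻¹ * c⁻¹) 0 (r * (y * r))‖ := by
        rw [norm_mul, norm_mul, norm_mul, Complex.norm_real, Real.norm_of_nonneg hs0]
      _ ≤ Real.sqrt n * 2 * t + 1 * t := by
        refine add_le_add ?_ ?_
        · exact mul_le_mul (mul_le_mul_of_nonneg_left hAv hs0) hb2 (norm_nonneg _)
            (mul_nonneg hs0 (by norm_num))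
        · exact mul_le_mul hBv hb1 (norm_nonneg _) (by norm_num)
      _ = (2 * Real.sqrt n + 1) * t := by ring
  -- the contraction factor
  set q : ℝ := (2 * Real.sqrt n + 1) / n with hq
  have hq0 : 0 ≤ q := div_nonneg (by positivity) hnpos.le
  have hq1 : q < 1 := by
    rw [hq, div_lt_one hnpos]
    exact sqrt_bound949 hn7'
  have hiter : ∀ k : ℕ, ∀ κ y, 0 < y → ‖U κ 0 y‖ ≤ q ^ k * C := by
    intro k
    induction k with
    | zero =>
      intro κ y hy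
      rw [pow_zero, one_mul]
      exact hD.bdd κ 0 y hy
    | succ k ih =>
      intro κ y hy
      have h := hstep (q ^ k * C) ih κ y hy
      have h2 : ‖U κ 0 y‖ ≤ (2 * Real.sqrt n + 1) * (q ^ k * C) / n := by
        rw [le_div_iff₀ hnpos]
        linarith
      have h3 : (2 * Real.sqrt n + 1) * (q ^ k * C) / n = q ^ (k + 1) * C := by
        rw [pow_succ, hq]
        ring
      rw [← h3]
      exact h2
  -- the limit
  have hlim : Filter.Tendsto (fun k : ℕ => q ^ k * C) Filter.atTop (nhds 0) := by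
    have := (tendsto_pow_atTop_nhds_zero_of_lt_one hq0 hq1).mul_const C
    simpa using this
  have hzero : ‖U κ₀ 0 y₀‖ ≤ 0 := ge_of_tendsto' hlim fun k => hiter k κ₀ y₀ hy₀
  have hU0 : U κ₀ 0 y₀ = 0 := norm_le_zero_iff.mp hzero
  exact hne ((hcon κ₀ z₀ 0 y₀ hy₀).trans hU0)

end Fermat.Agent.LT.T7.H949

end
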