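import Mathlib
import Fermat.Agent.LT.T7.H751.FactDownQSpec
import Fermat.Agent.LT.H942.CompactBounds

/-!
# Row LT, tower T7, node Q2.7.7 `MQ298.FactDownQC298`, leaf FDQ.5 `H751.CutOnOutQC751`
# (registry 2699) -- helper949

OFF-MAIN.  `cutOnOutQC949 : H751.CutOnOutQC751`, UNCONDITIONAL, VERBATIM Prop of
`LT/T7/H751/FactDownQSpec.lean` (helper751@e9ffa788e, sha256 aa280353).

MIRROR over `ℚ` of the proof of the cubic leaf `H558.CutOnOutC558` by helper385
(`T7/H385/CutOnOut.lean`), ported to ONE real place, `GL₂(ℝ)`.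

Proof.  `Out_S` is an open subgroup (`H942.isOpen_integralOutside942`), so for `x' ∈ Out_S`:
`t x' ∈ Out_S ⟺ t ∈ Out_S`, and `A = {t ∈ T_𝔸(γ) : t ∈ Out_S}` is measurable.  The integrand is
`1_A(t) g(compSQ298 S t)`, `g(a, b) = cT⁻¹ ∏_v β_v(a_v x'_v) β_r(b x'_∞)`; the image of `μT|_A`
under `compSQ298 S` is `cT` times the product of the local torus measures (`IsTorConstQ298`);
Fubini for products (`integral_prod_mul`, `integral_fintype_prod_eq_prod`); the local integrals
are `1` (`IsLocCut305`, `IsCut305`).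
-/

set_option autoImplicit false
set_option linter.style.haveILetI false

open AutomorphicForm IsDedekindDomain NumberField MeasureTheory

noncomputable section

namespace Fermat.Agent.LT.T7.H949

open Fermat.Agent.LT Fermat.Agent.LT.H556 Fermat.Agent.LT.H556.A0 Fermat.Agent.LT.T7
open Fermat.Agent.LT.T7.H305 Fermat.Agent.LT.T7.H558 Fermat.Agent.LT.T7.H751

/-! ## 1. The abstract computation -/

open Classical in
/-- Fubini for a cut-off of product form (finite product times one factor). -/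
theorem integral_cutQ_abs949 {X : Type*} [MeasurableSpace X] {ι : Type*} [Fintype ι]
    {Y : ι → Type*} [∀ i, MeasurableSpace (Y i)] {Z : Type*} [MeasurableSpace Z]
    (μ : Measure X) (A : Set X) (hA : MeasurableSet A)
    (φ : X → (∀ i, Y i) × Z) (hφ : Measurable φ)
    (ν : ∀ i, Measure (Y i)) (ρ : Measure Z) [∀ i, SigmaFinite (ν i)] [SigmaFinite ρ]
    (c : ℝ) (hc : 0 < c)
    (hmap : Measure.map φ (μ.restrict A) = ENNReal.ofReal c • ((Measure.pi ν).prod ρ))
    (a : ∀ i, Y i → ℝ) (b : Z → ℝ) (ha : ∀ i, Measurable (a i)) (hb : Measurable b)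
    (ha1 : ∀ i, ∫ y, a i y ∂ν i = 1) (hb1 : ∫ z, b z ∂ρ = 1) :
    ∫ x, (if x ∈ A then c⁻¹ * (∏ i, a i ((φ x).1 i)) * b (φ x).2 else 0) ∂μ = 1 := by
  set g : (∀ i, Y i) × Z → ℝ := fun p => c⁻¹ * (∏ i, a i (p.1 i)) * b p.2 with hg
  have hgm : Measurable g := by
    refine (measurable_const.mul ?_).mul ?_
    · exact Finset.measurable_prod _ fun i _ =>
        (ha i).comp ((measurable_pi_apply i).comp measurable_fst)
    · exact hb.comp measurable_snd
  have e1 : (fun x => if x ∈ A then c⁻¹ * (∏ i, a i ((φ x).1 i)) * b (φ x).2 else 0)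
      = A.indicator (fun x => g (φ x)) := by
    funext x
    by_cases hx : x ∈ A
    · rw [if_pos hx, Set.indicator_of_mem hx]
    · rw [if_neg hx, Set.indicator_of_notMem hx]
  rw [e1, integral_indicator hA, ← integral_map hφ.aemeasurable hgm.aestronglyMeasurable, hmap,
    integral_smul_measure, ENNReal.toReal_ofReal hc.le]
  have e2 : ∫ p, g p ∂((Measure.pi ν).prod ρ)
      = c⁻¹ * ((∫ y, ∏ i, a i (y i) ∂(Measure.pi ν)) * ∫ z, b z ∂ρ) := by
    rw [← integral_prod_mul, ← integral_const_mul]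
    congr 1
    funext p
    show (c⁻¹ * ∏ i, a i (p.1 i)) * b p.2 = _
    rw [mul_assoc]
  rw [e2, integral_fintype_prod_eq_prod]
  simp only [ha1, hb1, Finset.prod_const_one, mul_one, smul_eq_mul]
  exact mul_inv_cancel₀ hc.ne'

/-! ## 2. `Out_S` is a subgroup -/

section Out

variable {K : Type} [Field K] [NumberField K]

theorem isIntegralAt_mulQ949 {v : HeightOneSpectrum (𝓞 K)} {a b : G K}
    (ha : IsIntegralAt v a) (hb : IsIntegralAt v b) : IsIntegralAt v (a * b) := by
  intro i j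
  rw [H942.finComp_mul942, Matrix.mul_apply]
  exact sum_mem fun k _ => mul_mem (ha i k) (hb k j)

theorem outT_mulQ949 {S : Finset (HeightOneSpectrum (𝓞 K))} {a b : G K}
    (ha : OutT305 S a) (hb : OutT305 S b) : OutT305 S (a * b) := fun v hv =>
  ⟨isIntegralAt_mulQ949 (ha v hv).1 (hb v hv).1, by
    rw [mul_inv_rev]
    exact isIntegralAt_mulQ949 (hb v hv).2 (ha v hv).2⟩

theorem outT_invQ949 {S : Finset (HeightOneSpectrum (𝓞 K))} {a : G K}
    (ha : OutT305 S a) : OutT305 S a⁻¹ := fun v hv =>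
  ⟨(ha v hv).2, by rw [inv_inv]; exact (ha v hv).1⟩

theorem outT_mul_iffQ949 {S : Finset (HeightOneSpectrum (𝓞 K))} {t x : G K}
    (hx : OutT305 S x) : OutT305 S (t * x) ↔ OutT305 S t := by
  constructor
  · intro h
    have := outT_mulQ949 h (outT_invQ949 hx)
    rwa [mul_inv_cancel_right] at this
  · intro h
    exact outT_mulQ949 h hx

end Out

/-! ## 3. The leaf -/

/-- **Leaf FDQ.5 `CutOnOutQC751`**, unconditional. -/
theorem cutOnOutQC949 : CutOnOutQC751 := by
  intro hσv hσr hcontv hre m S γ hell hgood μT hμT L cT hL hcT hconst x' hx'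
  classical
  letI iT : MeasurableSpace (tA305 (T5.AdelicAut.id ℚ) γ) := borel _
  haveI bT : BorelSpace (tA305 (T5.AdelicAut.id ℚ) γ) := ⟨rfl⟩
  letI iv : ∀ v : HeightOneSpectrum (𝓞 ℚ), MeasurableSpace (GL (Fin 2) (v.adicCompletion ℚ)) :=
    fun _ => borel _
  haveI bv : ∀ v : HeightOneSpectrum (𝓞 ℚ), BorelSpace (GL (Fin 2) (v.adicCompletion ℚ)) :=
    fun _ => ⟨rfl⟩
  letI ic : MeasurableSpace (GL (Fin 2) ℝ) := borel _
  haveI bc : BorelSpace (GL (Fin 2) ℝ) := ⟨rfl⟩
  letI itv : ∀ v : HeightOneSpectrum (𝓞 ℚ), MeasurableSpace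
      (T6.twCentSub (T6.glAut (RingEquiv.refl (v.adicCompletion ℚ))) (locG305 v γ)) :=
    fun _ => borel _
  haveI btv : ∀ v : HeightOneSpectrum (𝓞 ℚ), BorelSpace
      (T6.twCentSub (T6.glAut (RingEquiv.refl (v.adicCompletion ℚ))) (locG305 v γ)) :=
    fun _ => ⟨rfl⟩
  letI itc : MeasurableSpace (cent305 (MQ298.reGLQ298 (T5.ratG γ))) := borel _
  haveI btc : BorelSpace (cent305 (MQ298.reGLQ298 (T5.ratG γ))) := ⟨rfl⟩
  have hmap := hconst S hgood
  -- the set `A`
  have hAo : IsOpen {t : tA305 (T5.AdelicAut.id ℚ) γ | OutT305 S (t : G ℚ)} :=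
    (H942.isOpen_integralOutside942 S).preimage continuous_subtype_val
  have hAm : MeasurableSet {t : tA305 (T5.AdelicAut.id ℚ) γ | OutT305 S (t : G ℚ)} :=
    hAo.measurableSet
  -- σ-finiteness
  haveI sν : ∀ i : S, SigmaFinite (Measure.map Subtype.val (L.μt i.1)) :=
    fun i => hσv i.1 (locG305 i.1 γ) (L.μt i.1) (hL.tor i.1).1
  haveI sρ : SigmaFinite (Measure.map Subtype.val L.μtr) :=
    hσr (MQ298.reGLQ298 (T5.ratG γ)) L.μtr hL.torr
  -- measurability of the components
  have hφ : Measurable (fun t : tA305 (T5.AdelicAut.id ℚ) γ => MQ298.compSQ298 S (t : G ℚ)) := by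
    refine Measurable.prodMk ?_ ?_
    · exact measurable_pi_lambda _ fun i =>
        ((hcontv i.1).comp continuous_subtype_val).measurable
    · exact (hre.comp continuous_subtype_val).measurable
  have ha : ∀ i : S, Measurable
      (fun y : GL (Fin 2) (i.1.adicCompletion ℚ) => L.βv i.1 (y * finGL305 i.1 x')) :=
    fun i => ((hL.cut i.1).1.comp (continuous_mul_const _)).measurable
  have hb : Measurable (fun y : GL (Fin 2) ℝ => L.βr (y * MQ298.reGLQ298 x')) :=
    (hL.cutr.1.comp (continuous_mul_const _)).measurable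
  -- the local integrals
  have ha1 : ∀ i : S, ∫ y, L.βv i.1 (y * finGL305 i.1 x')
      ∂(Measure.map Subtype.val (L.μt i.1)) = 1 := by
    intro i
    rw [integral_map continuous_subtype_val.measurable.aemeasurable
      (ha i).aestronglyMeasurable]
    exact (hL.cut i.1).2.2 (finGL305 i.1 x')
  have hb1 : ∫ y, L.βr (y * MQ298.reGLQ298 x') ∂(Measure.map Subtype.val L.μtr) = 1 := by
    rw [integral_map continuous_subtype_val.measurable.aemeasurable hb.aestronglyMeasurable]
    exact hL.cutr.2.2 (MQ298.reGLQ298 x')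
  have key := integral_cutQ_abs949 (Y := fun i : S => GL (Fin 2) (i.1.adicCompletion ℚ))
    (Z := GL (Fin 2) ℝ) μT _ hAm _ hφ
    (fun i : S => Measure.map Subtype.val (L.μt i.1))
    (Measure.map Subtype.val L.μtr) cT hcT hmap
    (fun i y => L.βv i.1 (y * finGL305 i.1 x')) (fun y => L.βr (y * MQ298.reGLQ298 x'))
    ha hb ha1 hb1
  rw [← key]
  congr 1
  funext t
  unfold MQ298.prodCutQ298
  by_cases ht : OutT305 S (t : G ℚ)
  · rw [if_pos ((outT_mul_iffQ949 hx').2 ht), if_pos (show t ∈ {t : tA305 (T5.AdelicAut.id ℚ) γ |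
      OutT305 S (t : G ℚ)} from ht)]
    have e1 : ∀ v : HeightOneSpectrum (𝓞 ℚ),
        finGL305 v ((t : G ℚ) * x') = finGL305 v (t : G ℚ) * finGL305 v x' :=
      fun v => map_mul _ _ _
    have e2 : MQ298.reGLQ298 ((t : G ℚ) * x')
        = MQ298.reGLQ298 (t : G ℚ) * MQ298.reGLQ298 x' := map_mul _ _ _
    simp only [e1, e2]
    rw [← Finset.prod_coe_sort S (fun v => L.βv v (finGL305 v (t : G ℚ) * finGL305 v x'))]
    rfl
  · rw [if_neg (fun h => ht ((outT_mul_iffQ949 hx').1 h)),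
      if_neg (show ¬ t ∈ {t : tA305 (T5.AdelicAut.id ℚ) γ | OutT305 S (t : G ℚ)} from ht)]

end Fermat.Agent.LT.T7.H949

end
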