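import Mathlib
import Fermat.Agent.LT.T7.H893.SupplyFamSpec

/-!
# Row LT, tower T7, node T7.L2Q.1.H2b.4.G1 `PQ563.OpAvgQC563` (registry row 2967, helper949):
# the calculus of averages under finite combinations of left translations

OFF-MAIN, ADDITIVE (all names end in `949`).  Nothing assumed.

* `IsFinTr949 Op` : the operator `Op` on functions on a group is a finite linear combination of
  left translations; `H893.ltr`, `H893.lsum`, `H893.iwL`, `H893.regL` and their compositions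
  are of this kind.
* `IsAvgFam949 ν ψ φ` : `φ` is the average over the parameter space of the jointly continuous
  family `ψ` with a common compact support; the class is stable under the operators above.
-/

set_option autoImplicit false
set_option linter.unusedSectionVars false

open MeasureTheory

noncomputable section

namespace Fermat.Agent.LT.T7.H949

section FinTr

variable {Γ : Type} [Group Γ]

/-- `Op` is a finite linear combination of left translations. -/
def IsFinTr949 (Op : (Γ → ℂ) → Γ → ℂ) : Prop :=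
  ∃ (ι : Type) (s : Finset ι) (c : ι → ℂ) (b : ι → Γ),
    ∀ (ψ : Γ → ℂ) (y : Γ), Op ψ y = ∑ i ∈ s, c i * ψ ((b i)⁻¹ * y)

theorem isFinTr_id949 : IsFinTr949 (fun ψ : Γ → ℂ => ψ) :=
  ⟨Unit, {()}, fun _ => 1, fun _ => 1, fun ψ y => by
    rw [Finset.sum_singleton, one_mul, inv_one, one_mul]⟩

theorem isFinTr_comp949 {A B : (Γ → ℂ) → Γ → ℂ} (hA : IsFinTr949 A) (hB : IsFinTr949 B) :
    IsFinTr949 (fun ψ => A (B ψ)) := by
  obtain ⟨ι, s, c, b, h⟩ := hA
  obtain ⟨ι', s', c', b', h'⟩ := hB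
  refine ⟨ι × ι', s ×ˢ s', fun p => c p.1 * c' p.2, fun p => b p.1 * b' p.2, fun ψ y => ?_⟩
  show A (B ψ) y = _
  rw [h, Finset.sum_product]
  refine Finset.sum_congr rfl fun i _ => ?_
  rw [h', Finset.mul_sum]
  refine Finset.sum_congr rfl fun j _ => ?_
  show c i * (c' j * ψ ((b' j)⁻¹ * ((b i)⁻¹ * y))) = c i * c' j * ψ ((b i * b' j)⁻¹ * y)
  rw [mul_inv_rev, mul_assoc, mul_assoc]

theorem isFinTr_iterate949 {A : (Γ → ℂ) → Γ → ℂ} (hA : IsFinTr949 A) (m : ℕ) :
    IsFinTr949 (A^[m]) := by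
  induction m with
  | zero => exact isFinTr_id949
  | succ m ih =>
    rw [Function.iterate_succ']
    exact isFinTr_comp949 (A := A) (B := A^[m]) hA ih

/-- Operators of this kind are linear. -/
theorem isFinTr_const_mul949 {Op : (Γ → ℂ) → Γ → ℂ} (hOp : IsFinTr949 Op) (c₀ : ℂ)
    (ψ : Γ → ℂ) (y : Γ) : Op (fun x => c₀ * ψ x) y = c₀ * Op ψ y := by
  obtain ⟨ι, s, c, b, h⟩ := hOp
  rw [h, h, Finset.mul_sum]
  refine Finset.sum_congr rfl fun i _ => ?_
  show c i * (c₀ * ψ ((b i)⁻¹ * y)) = c₀ * (c i * ψ ((b i)⁻¹ * y))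
  rw [mul_left_comm]

/-- Operators of this kind act pointwise on equal functions. -/
theorem isFinTr_congr949 {Op : (Γ → ℂ) → Γ → ℂ} {ψ ψ' : Γ → ℂ} (h : ∀ y, ψ y = ψ' y) :
    Op ψ = Op ψ' := by
  have : ψ = ψ' := funext h
  rw [this]

end FinTr

section Ops

open Fermat.Agent.LT.H556 Fermat.Agent.LT.H556.A0 Fermat.Agent.LT.T7
open IsDedekindDomain NumberField

variable {K : Type} [Field K] [NumberField K]

theorem isFinTr_ltr949 (b : G K) : IsFinTr949 (H893.ltr b) :=
  ⟨Unit, {()}, fun _ => 1, fun _ => b, fun ψ y => by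
    rw [Finset.sum_singleton, one_mul]
    rfl⟩

theorem isFinTr_lsum949 (H : Finset (G K)) : IsFinTr949 (H893.lsum H) :=
  ⟨G K, H, fun _ => 1, fun h => h, fun ψ y => by
    show ∑ h ∈ H, ψ (h⁻¹ * y) = _
    refine Finset.sum_congr rfl fun h _ => ?_
    rw [one_mul]⟩

theorem isFinTr_iwL949 (w : HeightOneSpectrum (𝓞 K)) (H : Finset (G K)) :
    IsFinTr949 (H893.iwL w H) :=
  ⟨G K, H, fun _ => ((Real.sqrt (Ideal.absNorm w.asIdeal : ℝ) : ℝ) : ℂ)⁻¹, fun h => h,
    fun ψ y => by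
      show ((Real.sqrt (Ideal.absNorm w.asIdeal : ℝ) : ℝ) : ℂ)⁻¹ * ∑ h ∈ H, ψ (h⁻¹ * y) = _
      rw [Finset.mul_sum]⟩

theorem isFinTr_regL949 (w : HeightOneSpectrum (𝓞 K)) (z : G K) (H : Finset (G K)) (k : ℤ)
    (m : ℕ) : IsFinTr949 (H893.regL w z H k m) :=
  isFinTr_comp949 (A := H893.ltr (z ^ k)) (B := (H893.iwL w H)^[m]) (isFinTr_ltr949 (z ^ k))
    (isFinTr_iterate949 (isFinTr_iwL949 w H) m)

end Ops

section Avg

variable {Ω Γ : Type} [TopologicalSpace Ω] [MeasurableSpace Ω] [TopologicalSpace Γ]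

/-- `φ` is the average over `Ω` of the jointly continuous family `ψ` with a common compact
support. -/
structure IsAvgFam949 (ν : Measure Ω) (ψ : Ω → Γ → ℂ) (φ : Γ → ℂ) : Prop where
  cont : Continuous (fun p : Ω × Γ => ψ p.1 p.2)
  supp : ∃ C : Set Γ, IsCompact C ∧ ∀ (a : Ω) (h : Γ), ψ a h ≠ 0 → h ∈ C
  int : ∀ h : Γ, φ h = ∫ a, ψ a h ∂ν

variable [CompactSpace Ω] [BorelSpace Ω] [Group Γ] [ContinuousMul Γ]

theorem isAvgFam_integrable949 {ν : Measure Ω} [IsFiniteMeasure ν] {ψ : Ω → Γ → ℂ} {φ : Γ → ℂ}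
    (h : IsAvgFam949 ν ψ φ) (y : Γ) : Integrable (fun a => ψ a y) ν := by
  have hc : Continuous (fun a => ψ a y) :=
    h.cont.comp (continuous_id.prodMk continuous_const)
  exact hc.integrable_of_hasCompactSupport (HasCompactSupport.of_compactSpace _)

theorem isAvgFam_op949 {ν : Measure Ω} [IsFiniteMeasure ν] {Op : (Γ → ℂ) → Γ → ℂ}
    (hOp : IsFinTr949 Op) {ψ : Ω → Γ → ℂ} {φ : Γ → ℂ} (h : IsAvgFam949 ν ψ φ) :
    IsAvgFam949 ν (fun a => Op (ψ a)) (Op φ) := by
  obtain ⟨ι, s, c, b, hop⟩ := hOp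
  refine ⟨?_, ?_, ?_⟩
  · have e : (fun p : Ω × Γ => Op (ψ p.1) p.2)
        = fun p : Ω × Γ => ∑ i ∈ s, c i * ψ p.1 ((b i)⁻¹ * p.2) := by
      funext p
      exact hop _ _
    rw [e]
    refine continuous_finsetSum s fun i _ => continuous_const.mul ?_
    exact h.cont.comp (continuous_fst.prodMk (continuous_const.mul continuous_snd))
  · obtain ⟨C, hC, hCs⟩ := h.supp
    refine ⟨⋃ i ∈ s, (fun y => b i * y) '' C,
      s.isCompact_biUnion fun i _ => hC.image (continuous_const.mul continuous_id), ?_⟩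
    intro a y hy
    rw [hop] at hy
    obtain ⟨i, hi, hne⟩ := Finset.exists_ne_zero_of_sum_ne_zero hy
    have hne' : ψ a ((b i)⁻¹ * y) ≠ 0 := right_ne_zero_of_mul hne
    refine Set.mem_biUnion hi ⟨(b i)⁻¹ * y, hCs a _ hne', ?_⟩
    show b i * ((b i)⁻¹ * y) = y
    rw [mul_inv_cancel_left]
  · intro y
    rw [hop]
    have e : (fun a => Op (ψ a) y) = fun a => ∑ i ∈ s, c i * ψ a ((b i)⁻¹ * y) := by
      funext a
      exact hop _ _
    rw [e, integral_finsetSum s fun i _ => (isAvgFam_integrable949 h _).const_mul (c i)]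
    refine Finset.sum_congr rfl fun i _ => ?_
    rw [integral_const_mul, h.int]

/-- The class does not see pointwise equal families. -/
theorem isAvgFam_congr949 {ν : Measure Ω} {ψ ψ' : Ω → Γ → ℂ} {φ : Γ → ℂ}
    (h : IsAvgFam949 ν ψ φ) (e : ∀ a y, ψ a y = ψ' a y) : IsAvgFam949 ν ψ' φ := by
  have : ψ = ψ' := funext fun a => funext fun y => e a y
  rw [← this]
  exact h

end Avg

end Fermat.Agent.LT.T7.H949

end
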