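import Mathlib
import Fermat.Agent.LT.T7.H563.ProdShapeQSpec
import Fermat.Agent.LT.T7.H756.RegLPure
import Fermat.Agent.LT.T7.H102.TrPure
import Fermat.Agent.LT.H129.CartanInv
import Fermat.Agent.LT.T7.H209.LtrInv

/-!
# Row LT, tower T7, node T7.L2Q.1.H2b.4.G1 `PQ563.OpAvgQC563` (registry row 2967, helper949):
# the local components and the pure tensors

OFF-MAIN, ADDITIVE (all names end in `949`).  Nothing assumed.  The definitions of the Specs
are unfolded by `show` only.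

* left invariance of the components: `unitFn893 n` under `U(n)`, `iwFn893` and
  `PT563.iwRegFn563` under the Iwahori subgroup, spherical functions under `U(0)`;
* `regLoc_iwFn949` : `P51.regLoc51 w z H k j iwFn893 = PT563.iwRegFn563 (N w) k j`;
* pure tensors: congruence in the components at the places of `T`, left invariance under the
  elements whose components leave the components of the tensor invariant.
-/

set_option autoImplicit false
set_option linter.unusedSectionVars false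

open AutomorphicForm IsDedekindDomain NumberField

noncomputable section

namespace Fermat.Agent.LT.T7.H949

open Fermat.Agent.LT.H556 Fermat.Agent.LT.H556.A0 Fermat.Agent.LT.T7
open Fermat.Agent.LT.T7.H305 Fermat.Agent.LT.T7.H893 Fermat.Agent.LT.T7.MQ298
open Fermat.Agent.LT

/-! ## 1. Local facts -/

section Local

variable {k : Type} [Field k] [Valued k T6.Γ₀]

theorem exp_neg_lt_one949 {n : ℕ} (hn : 1 ≤ n) :
    (WithZero.exp (-(n : ℤ)) : T6.Γ₀) < 1 := by
  rw [← WithZero.exp_zero, WithZero.exp_lt_exp]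
  omega

theorem inIw_of_inU949 {n : ℕ} (hn : 1 ≤ n) {u : GL (Fin 2) k} (hu : T6.InU n u) :
    InIw893 u := by
  have h0 : (WithZero.exp (-((0 : ℕ) : ℤ)) : T6.Γ₀) = 1 := by simp
  refine ⟨fun i j => ?_, fun i j => ?_, ?_⟩
  · have := T6.H777.small_of_inU777 hu i j
    rwa [h0] at this
  · have := T6.H777.small_inv_of_inU777 hu i j
    rwa [h0] at this
  · have h1 := ((T6.H777.inU_iff777 n u).1 hu).1 1 0
    have e : ((u : Matrix (Fin 2) (Fin 2) k) - 1) 1 0 = (u : Matrix (Fin 2) (Fin 2) k) 1 0 := by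
      simp
    rw [e] at h1
    exact lt_of_le_of_lt h1 (exp_neg_lt_one949 hn)

theorem inIw_mul949 {a b : GL (Fin 2) k} (ha : InIw893 a) (hb : InIw893 b) :
    InIw893 (a * b) :=
  H340.isIwG340_mul (v := (Valued.v : Valuation k _)) ha hb

theorem inIw_inv949 {a : GL (Fin 2) k} (ha : InIw893 a) : InIw893 a⁻¹ :=
  H340.isIwG340_inv (v := (Valued.v : Valuation k _)) ha

theorem inIw_mul_iff949 {u x : GL (Fin 2) k} (hu : InIw893 u) :
    InIw893 (u * x) ↔ InIw893 x := by
  constructor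
  · intro h
    have := inIw_mul949 (inIw_inv949 hu) h
    rwa [inv_mul_cancel_left] at this
  · exact fun h => inIw_mul949 hu h

open Classical in
theorem iwFn_left949 {u : GL (Fin 2) k} (hu : InIw893 u) (x : GL (Fin 2) k) :
    iwFn893 (u * x) = iwFn893 x := by
  show (if InIw893 (u * x) then (1 : ℂ) else 0) = if InIw893 x then (1 : ℂ) else 0
  exact if_congr (inIw_mul_iff949 hu) rfl rfl

open Classical in
theorem unitFn_left949 {n : ℕ} {u : GL (Fin 2) k} (hu : T6.InU n u) (x : GL (Fin 2) k) :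
    unitFn893 n (u * x) = unitFn893 n x := by
  show (if T6.InU n (u * x) then (1 : ℂ) else 0) = if T6.InU n x then (1 : ℂ) else 0
  refine if_congr ⟨fun h => ?_, fun h => T6.H777.inU_mul777 hu h⟩ rfl rfl
  have := T6.H777.inU_mul777 (T6.H777.inU_inv777 hu) h
  rwa [inv_mul_cancel_left] at this

theorem sph_left949 {φ : GL (Fin 2) k → ℂ} {A : (ℤ × ℤ) →₀ ℂ} (h : IsSphFn893 φ A)
    {u : GL (Fin 2) k} (hu : T6.InU 0 u) (x : GL (Fin 2) k) : φ (u * x) = φ x := by
  have e := H129.cartan_mul129 (g := x) hu (T6.H777.inU_one777 0)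
  rw [mul_one] at e
  rw [h.2 (u * x), h.2 x, e]

/-- The condition of `PT563.iwRegFn563`. -/
def IwRegSet949 (e : ℤ) (m : ℕ) (x : GL (Fin 2) k) : Prop :=
  ∃ (a b : GL (Fin 2) k) (c d : k), InIw893 a ∧ InIw893 b ∧
    Valued.v c = WithZero.exp (-(m : ℤ)) ∧ Valued.v d = WithZero.exp (-e) ∧
    (x : Matrix (Fin 2) (Fin 2) k)
      = d • ((a : Matrix (Fin 2) (Fin 2) k) * !![c, 0; 0, 1] * (b : Matrix (Fin 2) (Fin 2) k))

theorem iwRegSet_mul949 {e : ℤ} {m : ℕ} {u x : GL (Fin 2) k} (hu : InIw893 u)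
    (hx : IwRegSet949 e m x) : IwRegSet949 e m (u * x) := by
  obtain ⟨a, b, c, d, ha, hb, hc, hd, hx⟩ := hx
  refine ⟨u * a, b, c, d, inIw_mul949 hu ha, hb, hc, hd, ?_⟩
  rw [Units.val_mul, hx, Units.val_mul, Matrix.mul_smul, Matrix.mul_assoc, Matrix.mul_assoc,
    Matrix.mul_assoc]

open Classical in
theorem iwRegFn_left949 (q : ℕ) (e : ℤ) (m : ℕ) {u : GL (Fin 2) k} (hu : InIw893 u)
    (x : GL (Fin 2) k) :
    PT563.iwRegFn563 q e m (u * x) = PT563.iwRegFn563 q e m x := by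
  show (if IwRegSet949 e m (u * x) then (((Real.sqrt (q : ℝ) : ℝ) : ℂ)⁻¹) ^ m else 0)
    = if IwRegSet949 e m x then (((Real.sqrt (q : ℝ) : ℝ) : ℂ)⁻¹) ^ m else 0
  refine if_congr ⟨fun h => ?_, fun h => iwRegSet_mul949 hu h⟩ rfl rfl
  have := iwRegSet_mul949 (inIw_inv949 hu) h
  rwa [inv_mul_cancel_left] at this

end Local

/-! ## 2. The regular local function -/

section Reg

variable {K : Type} [Field K] [NumberField K]

theorem iwLoc_iterate949 {w : HeightOneSpectrum (𝓞 K)} {H : Finset (G K)}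
    (hH : IsIwCosetSystem w H) (m : ℕ) :
    (P51.iwLoc51 w H)^[m] iwFn893 = PT563.iwRegFn563 (Ideal.absNorm w.asIdeal) 0 m := by
  induction m with
  | zero => rw [Function.iterate_zero, id, H756.iwRegFn_zero_zero756]
  | succ m ih =>
    rw [Function.iterate_succ_apply', ih]
    funext x
    exact H756.iwReg_step756 w hH (Ideal.absNorm w.asIdeal) m x

theorem regLoc_iwFn949 {w : HeightOneSpectrum (𝓞 K)} {z : G K} {H : Finset (G K)}
    (hH : IsIwCosetSystem w H) (hz : IsScalarUniformizerAt w z) (e : ℤ) (m : ℕ) :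
    P51.regLoc51 w z H e m iwFn893 = PT563.iwRegFn563 (Ideal.absNorm w.asIdeal) e m := by
  obtain ⟨_, c, hc, hzc⟩ := hz
  funext y
  show ((P51.iwLoc51 w H)^[m] iwFn893) ((finGL305 w z ^ e)⁻¹ * y) = _
  rw [iwLoc_iterate949 hH m]
  exact H756.iwReg_shift756 _ m e hc (s := finGL305 w z)
    (by rw [H756.coe_finGL756]; exact hzc) y

/-- The component at `w` of an element of the Iwahori subgroup at `w`. -/
theorem inIw_finGL949 {w : HeightOneSpectrum (𝓞 K)} {h : G K} (hh : T5.InIwahori w h) :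
    InIw893 (finGL305 w h) := by
  obtain ⟨h1, h2, h3⟩ := hh
  refine ⟨fun i j => ?_, fun i j => ?_, ?_⟩
  · rw [H756.coe_finGL756]
    exact (HeightOneSpectrum.mem_adicCompletionIntegers (𝓞 K) K w).1 (h1 i j)
  · rw [H756.coe_finGL_inv756]
    exact (HeightOneSpectrum.mem_adicCompletionIntegers (𝓞 K) K w).1 (h2 i j)
  · rw [H756.coe_finGL756]
    exact h3

/-- The exponent of the level at a place which divides it is positive. -/
theorem level_pos949 {𝔑 : Ideal (𝓞 K)} {n : HeightOneSpectrum (𝓞 K) → ℕ}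
    (hlev : IsLevelOf893 𝔑 n) {w : HeightOneSpectrum (𝓞 K)} (hw : w.asIdeal ∣ 𝔑) :
    1 ≤ n w := by
  by_contra hn
  have h0 : n w = 0 := by omega
  have h1 : (1 : w.adicCompletion K) ∈ idealClosure 𝔑 w := by
    rw [hlev w 1, h0]
    simp
  have := H209.val_lt_one_of_mem_idealClosure209 hw h1
  rw [map_one] at this
  exact lt_irrefl _ this

end Reg

/-! ## 3. Pure tensors -/

section Pure

variable {K : Type} [Field K] [NumberField K]

open Classical in
theorem pure_congr949 {T : Finset (HeightOneSpectrum (𝓞 K))}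
    {f₀ f₀' : ∀ v : HeightOneSpectrum (𝓞 K), GL (Fin 2) (v.adicCompletion K) → ℂ}
    (F : InfinitePlace K → GL (Fin 2) ℂ → ℂ) (h : ∀ v ∈ T, f₀ v = f₀' v) (y : G K) :
    pure305 T f₀ F y = pure305 T f₀' F y := by
  show (if OutT305 T y then
      (∏ v ∈ T, f₀ v (finGL305 v y)) * ∏ w : InfinitePlace K, F w (infGL305 w y) else 0)
    = if OutT305 T y then
      (∏ v ∈ T, f₀' v (finGL305 v y)) * ∏ w : InfinitePlace K, F w (infGL305 w y) else 0
  rw [Finset.prod_congr rfl fun v hv => by rw [h v hv]]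

open Classical in
theorem pureQ_congr949 {T : Finset (HeightOneSpectrum (𝓞 ℚ))}
    {f₀ f₀' : ∀ v : HeightOneSpectrum (𝓞 ℚ), GL (Fin 2) (v.adicCompletion ℚ) → ℂ}
    (Fr : GL (Fin 2) ℝ → ℂ) (h : ∀ v ∈ T, f₀ v = f₀' v) (y : G ℚ) :
    pureQ298 T f₀ Fr y = pureQ298 T f₀' Fr y := by
  show (if OutT305 T y then (∏ v ∈ T, f₀ v (finGL305 v y)) * Fr (reGLQ298 y) else 0)
    = if OutT305 T y then (∏ v ∈ T, f₀' v (finGL305 v y)) * Fr (reGLQ298 y) else 0
  rw [Finset.prod_congr rfl fun v hv => by rw [h v hv]]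

theorem outT_inv949 {T : Finset (HeightOneSpectrum (𝓞 K))} {u : G K}
    (hout : ∀ v : HeightOneSpectrum (𝓞 K), v ∉ T → T6.InU 0 (finGL305 v u)) :
    OutT305 T u⁻¹ := by
  rw [H756.outT_iff756]
  intro v hv
  rw [map_inv]
  exact T6.H777.inU_inv777 (hout v hv)

/-- Left invariance of a pure tensor under an element which is trivial at infinity, integral
outside `T`, and whose components at the places of `T` leave the components invariant. -/
theorem pure_left949 {T : Finset (HeightOneSpectrum (𝓞 K))} {u : G K}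
    (hinf : ∀ w : InfinitePlace K, infGL305 w u = 1)
    (hout : ∀ v : HeightOneSpectrum (𝓞 K), v ∉ T → T6.InU 0 (finGL305 v u))
    {f₀ : ∀ v : HeightOneSpectrum (𝓞 K), GL (Fin 2) (v.adicCompletion K) → ℂ}
    (F : InfinitePlace K → GL (Fin 2) ℂ → ℂ)
    (hf : ∀ v ∈ T, ∀ x, f₀ v (finGL305 v u * x) = f₀ v x) (y : G K) :
    pure305 T f₀ F (u * y) = pure305 T f₀ F y := by
  have hTr := H102.trPureC102 K T u⁻¹ (outT_inv949 hout) f₀ F y
  rw [inv_inv] at hTr
  rw [hTr]
  have eF : (fun (w : InfinitePlace K) (x : GL (Fin 2) ℂ) => F w ((infGL305 w u⁻¹)⁻¹ * x)) = F := by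
    funext w x
    rw [map_inv, inv_inv, hinf w, one_mul]
  rw [eF]
  refine pure_congr949 F (fun v hv => ?_) y
  funext x
  rw [map_inv, inv_inv]
  exact hf v hv x

/-- The same over `ℚ`. -/
theorem pureQ_left949 {T : Finset (HeightOneSpectrum (𝓞 ℚ))} {u : G ℚ}
    (hinf : reGLQ298 u = 1)
    (hout : ∀ v : HeightOneSpectrum (𝓞 ℚ), v ∉ T → T6.InU 0 (finGL305 v u))
    {f₀ : ∀ v : HeightOneSpectrum (𝓞 ℚ), GL (Fin 2) (v.adicCompletion ℚ) → ℂ}
    (Fr : GL (Fin 2) ℝ → ℂ)
    (hf : ∀ v ∈ T, ∀ x, f₀ v (finGL305 v u * x) = f₀ v x) (y : G ℚ) :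
    pureQ298 T f₀ Fr (u * y) = pureQ298 T f₀ Fr y := by
  have hTr := H102.trPureQC102 T u⁻¹ (outT_inv949 hout) f₀ Fr y
  rw [inv_inv] at hTr
  rw [hTr]
  have eF : (fun (x : GL (Fin 2) ℝ) => Fr ((reGLQ298 u⁻¹)⁻¹ * x)) = Fr := by
    funext x
    rw [map_inv, inv_inv, hinf, one_mul]
  rw [eF]
  refine pureQ_congr949 Fr (fun v hv => ?_) y
  funext x
  rw [map_inv, inv_inv]
  exact hf v hv x

end Pure

/-! ## 4. Places -/

section Places

variable {K K' : Type} [Field K] [NumberField K] [Field K'] [NumberField K'] [Algebra K K']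

theorem placeOver_unique949 {v v' : HeightOneSpectrum (𝓞 K)} {w : HeightOneSpectrum (𝓞 K')}
    (h : PlaceOver K K' v w) (h' : PlaceOver K K' v' w) : v = v' := by
  apply HeightOneSpectrum.ext
  ext x
  have e : ((algebraMap (𝓞 K) (𝓞 K') x : 𝓞 K') : K') = algebraMap K K' (x : K) := rfl
  exact (h x _ e).trans (h' x _ e).symm

/-- A place which divides the extension of a non-zero ideal lies over a place which divides
the ideal. -/
theorem exists_under949 {𝔫 : Ideal (𝓞 K)} (h𝔫 : 𝔫 ≠ ⊥) {w : HeightOneSpectrum (𝓞 K')}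
    (hw : w.asIdeal ∣ upI (K' := K') 𝔫) :
    ∃ v : HeightOneSpectrum (𝓞 K), PlaceOver K K' v w ∧ v.asIdeal ∣ 𝔫 := by
  have hle : 𝔫 ≤ Ideal.comap (algebraMap (𝓞 K) (𝓞 K')) w.asIdeal := by
    intro x hx
    exact Ideal.le_of_dvd hw (Ideal.mem_map_of_mem _ hx)
  have hprime : (Ideal.comap (algebraMap (𝓞 K) (𝓞 K')) w.asIdeal).IsPrime :=
    Ideal.comap_isPrime _ _
  have hne : Ideal.comap (algebraMap (𝓞 K) (𝓞 K')) w.asIdeal ≠ ⊥ := by
    intro e
    rw [e, le_bot_iff] at hle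
    exact h𝔫 hle
  refine ⟨⟨_, hprime, hne⟩, ?_, Ideal.dvd_iff_le.2 hle⟩
  intro x y hxy
  have e : y = algebraMap (𝓞 K) (𝓞 K') x := by
    apply RingOfIntegers.ext
    rw [hxy]
    rfl
  rw [e]
  exact Iff.rfl

end Places

end Fermat.Agent.LT.T7.H949

end
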