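import Mathlib
import Fermat.Agent.LT.T7.H563.ProdShapeQSpec
import Fermat.Agent.LT.T7.H949.OpAvgKit
import Fermat.Agent.LT.T7.H949.OpAvgLoc
import Fermat.Agent.LT.T7.H209.LtrDown

/-!
# Row LT, tower T7, node T7.L2Q.1.H2b.4.G1 `PQ563.OpAvgQC563` (registry row 2967, helper949)

OFF-MAIN, ADDITIVE (all names end in `949`).  Nothing assumed.

    opAvgQC949 (F) : PQ563.OpAvgQC563 F      (VERBATIM, unconditional)

The operated second triple is an average of pure tensors of shape `PQ563.LocOpQ563` over the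
SAME parameter space with the SAME measure: the new components are the double coset functions
at the bad places, `PT563.iwRegFn563` at `o 0` and at `u` (`= P51.regLoc51 … iwFn893`,
`regLoc_iwFn949`), the old ones elsewhere.  The members are the images of the old members under
finite combinations of left translations (`OpAvgKit.lean`); pure tensors: PT.5
(`H756.lsumDblC756`), PT.6 (`H756.regLPureC756`, `H756.regLPureQC756`), PT.4
(`H102.trPureC102`, `H102.trPureQC102`); test functions: the kit of helper209.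
-/

set_option autoImplicit false
set_option linter.unusedSectionVars false
set_option linter.unusedVariables false

open AutomorphicForm IsDedekindDomain NumberField MeasureTheory

noncomputable section

namespace Fermat.Agent.LT.T7.H949

open Fermat.Agent.LT.H556 Fermat.Agent.LT.H556.A0 Fermat.Agent.LT.T7
  Fermat.Agent.LT.T7.H305 Fermat.Agent.LT.T7.L2Q Fermat.Agent.LT.T7.H893
  Fermat.Agent.LT.T7.H962 Fermat.Agent.LT.T7.H732 Fermat.Agent.LT.T7.MQ298
  Fermat.Agent.LT.T7.CQ801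
open Fermat.Agent.LT

variable {F : Type} [Field F] [NumberField F]

/-- `w` lies over a bad place different from `u`. -/
def IsBadOver949 (B : L2Q.H60.L2QBase F) (T₀ : Finset (HeightOneSpectrum (𝓞 ℚ)))
    (w : HeightOneSpectrum (𝓞 F)) : Prop :=
  ∃ v ∈ T₀, v ≠ B.u ∧ PlaceOver ℚ F v w

open Classical in
/-- The finite components upstairs of the operated pure tensors. -/
def opUp949 (B : L2Q.H60.L2QBase F) (g : G F) (T₀ : Finset (HeightOneSpectrum (𝓞 ℚ)))
    (n₀ : HeightOneSpectrum (𝓞 F) → ℕ) (k : ℤ) (j : ℕ)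
    (φ₀ : ∀ w : HeightOneSpectrum (𝓞 F), GL (Fin 2) (w.adicCompletion F) → ℂ) :
    ∀ w : HeightOneSpectrum (𝓞 F), GL (Fin 2) (w.adicCompletion F) → ℂ :=
  fun w => if IsBadOver949 B T₀ w then dblFn893 (n₀ w) (finGL305 w g)
    else Function.update φ₀ (B.o 0)
      (PT563.iwRegFn563 (Ideal.absNorm (B.o 0).asIdeal) k j) w

open Classical in
/-- The finite components downstairs of the operated pure tensors. -/
def opDn949 (B : L2Q.H60.L2QBase F) (k : ℤ) (j : ℕ)
    (f₀ : ∀ v : HeightOneSpectrum (𝓞 ℚ), GL (Fin 2) (v.adicCompletion ℚ) → ℂ) :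
    ∀ v : HeightOneSpectrum (𝓞 ℚ), GL (Fin 2) (v.adicCompletion ℚ) → ℂ :=
  Function.update f₀ B.u (PT563.iwRegFn563 (Ideal.absNorm B.u.asIdeal) k j)

theorem opUp_bad949 (B : L2Q.H60.L2QBase F) (g : G F) (T₀ : Finset (HeightOneSpectrum (𝓞 ℚ)))
    (n₀ : HeightOneSpectrum (𝓞 F) → ℕ) (k : ℤ) (j : ℕ)
    (φ₀ : ∀ w : HeightOneSpectrum (𝓞 F), GL (Fin 2) (w.adicCompletion F) → ℂ)
    {w : HeightOneSpectrum (𝓞 F)} (hw : IsBadOver949 B T₀ w) :
    opUp949 B g T₀ n₀ k j φ₀ w = dblFn893 (n₀ w) (finGL305 w g) := by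
  unfold opUp949
  exact if_pos hw

open Classical in
theorem opUp_good949 (B : L2Q.H60.L2QBase F) (g : G F) (T₀ : Finset (HeightOneSpectrum (𝓞 ℚ)))
    (n₀ : HeightOneSpectrum (𝓞 F) → ℕ) (k : ℤ) (j : ℕ)
    (φ₀ : ∀ w : HeightOneSpectrum (𝓞 F), GL (Fin 2) (w.adicCompletion F) → ℂ)
    {w : HeightOneSpectrum (𝓞 F)} (hw : ¬ IsBadOver949 B T₀ w) :
    opUp949 B g T₀ n₀ k j φ₀ w
      = Function.update φ₀ (B.o 0)
          (PT563.iwRegFn563 (Ideal.absNorm (B.o 0).asIdeal) k j) w := by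
  unfold opUp949
  exact if_neg hw

theorem upI_ne_bot949 {𝔫 : Ideal (𝓞 ℚ)} (h : 𝔫 ≠ ⊥) : upI (K' := F) 𝔫 ≠ ⊥ := by
  intro e
  apply h
  have hinj : Function.Injective (algebraMap (𝓞 ℚ) (𝓞 F)) :=
    FaithfulSMul.algebraMap_injective (𝓞 ℚ) (𝓞 F)
  exact (Ideal.map_eq_bot_iff_of_injective hinj).1 e

/-- **NODE PS.G1 = OP-AVG over `ℚ`.** -/
theorem opAvgQC949 (F : Type) [Field F] [NumberField F] : PQ563.OpAvgQC563 F := by
  classical
  intro Φ B g 𝔫 μr μc T₀ n n₀ m hctx c ca hc hca E hE𝔫 hop havg k j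
  subst hE𝔫
  obtain ⟨Ω, iT, iC, iT2, iSC, iM, iB, ν, iF, T, T', φ₀, Φ', f₀, F0, F1, hL, htU, htD0, htD1,
    hcU, hcD0, hcD1, hsU, hsD0, hsD1, hiU, hiD0, hiD1⟩ := havg
  have hbase := hctx.base
  have hsysD : IsIwCosetSystem B.u E.H := hop.sys
  have hunifD : IsScalarUniformizerAt B.u E.z := hop.unif
  have hsysU : IsIwCosetSystem (B.o 0) E.H' := hop.sys'
  have hunifU : IsScalarUniformizerAt (B.o 0) E.z' := hop.unif'
  have hbad := hctx.bad
  have hlev_n₀ := hctx.lev_n₀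
  -- the level and the orbit
  have hu_T₀ : B.u ∈ T₀ := (hctx.mem_T₀ B.u).2 hop.u_level
  have ho_dvd : ∀ i : ℕ, (B.o i).asIdeal ∣ B.𝔑₀ := fun i =>
    (hbase.mem_S' _).1 (hbase.orbit_level i)
  have hn₀pos : ∀ i : ℕ, 1 ≤ n₀ (B.o i) := fun i => level_pos949 hlev_n₀ (ho_dvd i)
  have h𝔑₀ne : B.𝔑₀ ≠ ⊥ := by
    intro e
    have h1 : upI (K' := F) E.𝔫 ≤ B.𝔑₀ := hop.level_g
    rw [e, le_bot_iff] at h1
    exact upI_ne_bot949 hop.level_ne h1
  have hnotBad : ∀ i : ℕ, ¬ IsBadOver949 B T₀ (B.o i) := by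
    rintro i ⟨v, _, hne, hvw⟩
    exact hne (placeOver_unique949 hvw (hbase.orbit_over i))
  have ho10 : B.o 1 ≠ B.o 0 := hbase.orbit_ne 1 one_pos (by norm_num)
  -- the elements of the systems are trivial at infinity
  have hHgT : ∀ h ∈ E.Hg, H209.TrivInf209 h := by
    intro h hh
    obtain ⟨u₁, u₂, hu₁, hu₂, rfl⟩ := hop.sysg.1 h hh
    exact H209.trivInf_mul209 (H209.trivInf_mul209 hu₁.1 hbad.1) hu₂.1
  have hH'T : ∀ h ∈ E.H', H209.TrivInf209 h := fun h hh => (hop.sys'.2.1 h hh).1.1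
  have hz'T : H209.TrivInf209 E.z' := hop.unif'.1.1
  have hHT : ∀ h ∈ E.H, H209.TrivInf209 h := fun h hh => (hop.sys.2.1 h hh).1.1
  have hzT : H209.TrivInf209 E.z := hop.unif.1.1
  -- per parameter
  have hoT' : ∀ (a : Ω) (i : ℕ), B.o i ∈ T' a := fun a i =>
    ((hL a).2.1 _).2 ⟨B.u, (hL a).1 hu_T₀, hbase.orbit_over i⟩
  have hφo : ∀ (a : Ω) (i : ℕ), φ₀ a (B.o i) = iwFn893 := fun a i =>
    (hL a).2.2.2.2.2.1 (B.o i) (hbase.orbit_over i)
  have hfu : ∀ a : Ω, f₀ a B.u = iwFn893 := fun a => (hL a).2.2.2.2.1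
  -- left invariance of the old components upstairs
  have hcomp : ∀ (a : Ω) (v : HeightOneSpectrum (𝓞 F)), v ∈ T' a →
      ∀ (u x : GL (Fin 2) (v.adicCompletion F)), T6.InU (n₀ v) u →
        φ₀ a v (u * x) = φ₀ a v x := by
    intro a v hv u x hu
    obtain ⟨hT₀a, hOver, _, hunit, _, _, hsph, _⟩ := hL a
    obtain ⟨v', hv', hvw⟩ := (hOver v).1 hv
    by_cases h0 : v' ∈ T₀
    · by_cases hu' : v' = B.u
      · rw [hu'] at hvw
        obtain ⟨i, _, rfl⟩ := hbase.orbit_all v hvw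
        rw [hφo a i]
        exact iwFn_left949 (inIw_of_inU949 (hn₀pos i) hu) x
      · rw [hunit v' h0 hu' v hvw]
        exact unitFn_left949 hu x
    · obtain ⟨A, Av, _, hA, _, _⟩ := hsph v' hv' h0
      exact sph_left949 (hA v hvw) (H756.inU_zero_of_inU756 hu) x
  -- the pointwise identity upstairs
  have hU : ∀ (a : Ω) (y : G F),
      lsum E.Hg (regL (B.o 0) E.z' E.H' k j (pure305 (T' a) (φ₀ a) (Φ' a))) y
        = pure305 (T' a) (opUp949 B g T₀ n₀ k j (φ₀ a)) (Φ' a) y := by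
    intro a y
    obtain ⟨hT₀a, hOver, _, hunit, _, _, _, _⟩ := hL a
    have e1 : regL (B.o 0) E.z' E.H' k j (pure305 (T' a) (φ₀ a) (Φ' a))
        = pure305 (T' a) (Function.update (φ₀ a) (B.o 0)
            (PT563.iwRegFn563 (Ideal.absNorm (B.o 0).asIdeal) k j)) (Φ' a) :=
      funext fun y => H756.regLPureC756 F (B.o 0) E.z' E.H' hop.sys' hop.unif' (T' a)
        (hoT' a 0) (φ₀ a) (Φ' a) (hφo a 0) k j y
    rw [e1]
    have hPT' : ∀ w, IsBadOver949 B T₀ w → w ∈ T' a := fun w hw => by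
      obtain ⟨v, hv, _, hvw⟩ := hw
      exact (hOver w).2 ⟨v, hT₀a hv, hvw⟩
    have hmemS : ∀ w, w ∈ (T' a).filter (IsBadOver949 B T₀) ↔ IsBadOver949 B T₀ w := fun w => by
      rw [Finset.mem_filter]
      exact ⟨fun h => h.2, fun h => ⟨hPT' w h, h⟩⟩
    have e2 := H756.lsumDblC756 F B.𝔑₀ n₀ h𝔑₀ne hlev_n₀ g
      ((T' a).filter (IsBadOver949 B T₀)) hbad.1
      (by
        intro v hv
        rw [hmemS] at hv
        apply hbad.2
        by_cases hS : v ∈ B.S'
        · right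
          obtain ⟨v', hvw, hv'⟩ := exists_under949 hop.level_ne ((hop.mem_S'_g v).1 hS)
          by_cases hu' : v' = B.u
          · rw [hu'] at hvw
            exact hbase.orbit_all v hvw
          · exact (hv ⟨v', (hctx.mem_T₀ v').2 hv', hu', hvw⟩).elim
        · exact Or.inl hS)
      E.Hg hop.sysg (T' a) (Finset.filter_subset _ _)
      (Function.update (φ₀ a) (B.o 0)
        (PT563.iwRegFn563 (Ideal.absNorm (B.o 0).asIdeal) k j)) (Φ' a)
      (by
        intro v hv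
        rw [hmemS] at hv
        have hne : v ≠ B.o 0 := fun e => hnotBad 0 (e ▸ hv)
        rw [Function.update_of_ne hne]
        obtain ⟨v', hv', hne', hvw⟩ := hv
        exact hunit v' hv' hne' v hvw)
      (by
        intro v hv hvS u x hu
        by_cases hv0 : v = B.o 0
        · subst hv0
          rw [Function.update_self]
          exact iwRegFn_left949 _ k j (inIw_of_inU949 (hn₀pos 0) hu) x
        · rw [Function.update_of_ne hv0]
          exact hcomp a v hv u x hu)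
      y
    rw [e2]
    refine pure_congr949 (Φ' a) (fun v hv => ?_) y
    by_cases hP : IsBadOver949 B T₀ v
    · rw [opUp_bad949 B g T₀ n₀ k j (φ₀ a) hP]
      exact if_pos ((hmemS v).2 hP)
    · rw [opUp_good949 B g T₀ n₀ k j (φ₀ a) hP]
      exact if_neg (fun h => hP ((hmemS v).1 h))
  -- left invariance of the old pure tensors upstairs
  have hLInv : ∀ a : Ω, H209.IsLInv209 B.𝔑₀ 2 B.o (pure305 (T' a) (φ₀ a) (Φ' a)) := by
    intro a
    refine ⟨fun u hu y => ?_, fun h h1 h2 h3 y => ?_⟩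
    · obtain ⟨hinf, hU'⟩ := (H756.inLevelGroup_iff_inU756 hlev_n₀ u).1 hu
      exact pure_left949 hinf (fun v _ => H756.inU_zero_of_inU756 (hU' v)) (Φ' a)
        (fun v hv x => hcomp a v hv _ x (hU' v)) y
    · refine pure_left949 (fun w => (H756.trivAtInf_iff_infGL756 w h).1 (h1 w))
        (fun v hv => ?_) (Φ' a) (fun v hv x => ?_) y
      · have : finGL305 v h = 1 := (H756.trivAtFin_iff_finGL756 v h).1
          (h2 v (fun i _ e => hv (e ▸ hoT' a i)))
        rw [this]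
        exact T6.H777.inU_one777 0
      · by_cases hvo : ∃ i < 2, v = B.o i
        · obtain ⟨i, hi, rfl⟩ := hvo
          rw [hφo a i]
          exact iwFn_left949 (inIw_finGL949 (h3 i hi)) x
        · have : finGL305 v h = 1 := (H756.trivAtFin_iff_finGL756 v h).1
            (h2 v (fun i hi e => hvo ⟨i, hi, e⟩))
          rw [this, one_mul]
  -- the members upstairs
  have hopU : IsFinTr949 (fun ψ : G F → ℂ => lsum E.Hg (regL (B.o 0) E.z' E.H' k j ψ)) :=
    isFinTr_comp949 (A := lsum E.Hg) (B := regL (B.o 0) E.z' E.H' k j)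
      (isFinTr_lsum949 E.Hg) (isFinTr_regL949 (B.o 0) E.z' E.H' k j)
  have hAvgU : IsAvgFam949 ν (fun a => pure305 (T' a) (opUp949 B g T₀ n₀ k j (φ₀ a)) (Φ' a))
      (lsum E.Hg (regL (B.o 0) E.z' E.H' k j E.φ₂)) :=
    isAvgFam_congr949 (isAvgFam_op949 hopU ⟨hcU, hsU, hiU⟩) hU
  have htU' : ∀ a : Ω, T5.IsTestFn (upI (K' := F) E.𝔫) T5.trivType
      (pure305 (T' a) (opUp949 B g T₀ n₀ k j (φ₀ a)) (Φ' a)) := by
    intro a
    have e : pure305 (T' a) (opUp949 B g T₀ n₀ k j (φ₀ a)) (Φ' a)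
        = lsum E.Hg (regL (B.o 0) E.z' E.H' k j (pure305 (T' a) (φ₀ a) (Φ' a))) :=
      funext fun y => (hU a y).symm
    rw [e]
    refine H209.isTestFn_of_isRT209 (htU a).ktype
      (H209.isRT_lsum209 hHgT
        (H209.isRT_regL209 (B.o 0) hz'T hH'T k j (H209.isRT_of_isTestFn209 (htU a))))
      (fun u hu y => ?_)
    exact H209.lsum_dbl_left_inv209 hop.sysg
      (H209.isLInv_regL209 (l := 2) (by norm_num) (ho_dvd 0) hop.sys' hop.unif' k j
        (hLInv a)).1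
      (H209.inLevelGroup_mono209 hop.level_g hu) y
  -- downstairs, for the two weights
  have hopD : IsFinTr949 (regL B.u E.z E.H k j) := isFinTr_regL949 B.u E.z E.H k j
  have hDn : ∀ (τ : G ℚ → ℂ) (Fr : Ω → GL (Fin 2) ℝ → ℂ) (f : G ℚ → ℂ),
      (∀ a : Ω, T5.IsTestFn E.𝔫 τ (fun h => ca * pureQ298 (T a) (f₀ a) (Fr a) h)) →
      Continuous (fun p : Ω × G ℚ => ca * pureQ298 (T p.1) (f₀ p.1) (Fr p.1) p.2) →
      (∃ C : Set (G ℚ), IsCompact C ∧
        ∀ (a : Ω) (h : G ℚ), pureQ298 (T a) (f₀ a) (Fr a) h ≠ 0 → h ∈ C) →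
      (∀ h : G ℚ, f h = ∫ a, ca * pureQ298 (T a) (f₀ a) (Fr a) h ∂ν) →
      (∀ a : Ω, T5.IsTestFn E.𝔫 τ
        (fun h => ca * pureQ298 (T a) (opDn949 B k j (f₀ a)) (Fr a) h)) ∧
      Continuous (fun p : Ω × G ℚ =>
        ca * pureQ298 (T p.1) (opDn949 B k j (f₀ p.1)) (Fr p.1) p.2) ∧
      (∃ C : Set (G ℚ), IsCompact C ∧
        ∀ (a : Ω) (h : G ℚ), pureQ298 (T a) (opDn949 B k j (f₀ a)) (Fr a) h ≠ 0 → h ∈ C) ∧
      ∀ h : G ℚ, regL B.u E.z E.H k j f h
        = ∫ a, ca * pureQ298 (T a) (opDn949 B k j (f₀ a)) (Fr a) h ∂ν := by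
    intro τ Fr f ht hcn hsp hin
    -- the pointwise identity downstairs
    have hD : ∀ (a : Ω) (y : G ℚ),
        regL B.u E.z E.H k j (fun h => ca * pureQ298 (T a) (f₀ a) (Fr a) h) y
          = ca * pureQ298 (T a) (opDn949 B k j (f₀ a)) (Fr a) y := by
      intro a y
      rw [isFinTr_const_mul949 hopD ca (pureQ298 (T a) (f₀ a) (Fr a)) y,
        H756.regLPureQC756 B.u E.z E.H hop.sys hop.unif (T a) ((hL a).1 hu_T₀) (f₀ a) (Fr a)
          (hfu a) k j y]
      rfl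
    have hAvg : IsAvgFam949 ν
        (fun a h => ca * pureQ298 (T a) (opDn949 B k j (f₀ a)) (Fr a) h)
        (regL B.u E.z E.H k j f) := by
      refine isAvgFam_congr949 (isAvgFam_op949 hopD ⟨hcn, ?_, hin⟩) hD
      obtain ⟨C, hC, hCs⟩ := hsp
      exact ⟨C, hC, fun a h hne => hCs a h (right_ne_zero_of_mul hne)⟩
    refine ⟨fun a => ?_, hAvg.cont, ?_, hAvg.int⟩
    · have e : (fun h => ca * pureQ298 (T a) (opDn949 B k j (f₀ a)) (Fr a) h)
          = regL B.u E.z E.H k j (fun h => ca * pureQ298 (T a) (f₀ a) (Fr a) h) :=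
        funext fun y => (hD a y).symm
      rw [e]
      have hLI : H209.IsLInv209 E.𝔫 1 (fun _ => B.u)
          (fun h => ca * pureQ298 (T a) (f₀ a) (Fr a) h) := by
        refine ⟨fun u hu y => (ht a).inv.level_left u hu y, fun h h1 h2 h3 y => ?_⟩
        have hloc : IsLocalAtFin B.u h := ⟨h1, fun v hv => h2 v (fun _ _ => hv)⟩
        show ca * pureQ298 (T a) (f₀ a) (Fr a) (h * y) = ca * pureQ298 (T a) (f₀ a) (Fr a) y
        rw [pureQ_left949 (H756.reGLQ_eq_one756 hloc) (fun v hv => ?_) (Fr a)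
          (fun v hv x => ?_) y]
        · have : finGL305 v h = 1 := (H756.trivAtFin_iff_finGL756 v h).1
            (hloc.2 v (fun e => hv (e ▸ (hL a).1 hu_T₀)))
          rw [this]
          exact T6.H777.inU_one777 0
        · by_cases hvu : v = B.u
          · subst hvu
            rw [hfu a]
            exact iwFn_left949 (inIw_finGL949 (h3 0 one_pos)) x
          · have : finGL305 v h = 1 := (H756.trivAtFin_iff_finGL756 v h).1 (hloc.2 v hvu)
            rw [this, one_mul]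
      exact H209.isTestFn_of_isRTT209 (ht a).ktype
        (H209.isRTT_regL209 B.u hzT hHT k j (H209.isRTT_of_isTestFn209 (ht a)))
        (fun u hu y => (H209.isLInv_regL209 (l := 1) (o := fun _ => B.u) one_pos
          hop.u_level hop.sys hop.unif k j hLI).1 u hu y)
    · obtain ⟨C, hC, hCs⟩ := hAvg.supp
      exact ⟨C, hC, fun a h hne => hCs a h (mul_ne_zero hca hne)⟩
  obtain ⟨htD0', hcD0', hsD0', hiD0'⟩ := hDn _ F0 _ htD0 hcD0 hsD0 hiD0
  obtain ⟨htD1', hcD1', hsD1', hiD1'⟩ := hDn _ F1 _ htD1 hcD1 hsD1 hiD1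
  refine ⟨Ω, iT, iC, iT2, iSC, iM, iB, ν, iF, T, T',
    fun a => opUp949 B g T₀ n₀ k j (φ₀ a), Φ', fun a => opDn949 B k j (f₀ a), F0, F1,
    fun a => ?_, htU', htD0', htD1', hAvgU.cont, hcD0', hcD1', hAvgU.supp, hsD0', hsD1',
    hAvgU.int, hiD0', hiD1'⟩
  -- the shape
  obtain ⟨hT₀a, hOver, hLocB⟩ := hL a
  refine ⟨hT₀a, hOver, φ₀ a, f₀ a, hLocB, fun v hv hne => ⟨?_, fun w hvw => ?_⟩, ?_, ?_, ?_,
    fun v hv hv0 => ⟨?_, fun w hvw => ?_⟩⟩
  · exact Function.update_of_ne hne _ _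
  · exact opUp_bad949 B g T₀ n₀ k j (φ₀ a) ⟨v, hv, hne, hvw⟩
  · show opDn949 B k j (f₀ a) B.u = P51.regLoc51 B.u E.z E.H k j iwFn893
    rw [regLoc_iwFn949 hsysD hunifD]
    exact Function.update_self _ _ _
  · show opUp949 B g T₀ n₀ k j (φ₀ a) (B.o 0) = P51.regLoc51 (B.o 0) E.z' E.H' k j iwFn893
    rw [regLoc_iwFn949 hsysU hunifU, opUp_good949 B g T₀ n₀ k j (φ₀ a) (hnotBad 0)]
    exact Function.update_self _ _ _
  · show opUp949 B g T₀ n₀ k j (φ₀ a) (B.o 1) = iwFn893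
    rw [opUp_good949 B g T₀ n₀ k j (φ₀ a) (hnotBad 1), Function.update_of_ne ho10]
    exact hφo a 1
  · have hne : v ≠ B.u := fun e => hv0 (e ▸ hu_T₀)
    exact Function.update_of_ne hne _ _
  · have hnb : ¬ IsBadOver949 B T₀ w := by
      rintro ⟨v', hv', _, hv'w⟩
      exact hv0 (placeOver_unique949 hv'w hvw ▸ hv')
    have hne : w ≠ B.o 0 := by
      intro e
      rw [e] at hvw
      exact hv0 (placeOver_unique949 (hbase.orbit_over 0) hvw ▸ hu_T₀)
    show opUp949 B g T₀ n₀ k j (φ₀ a) w = φ₀ a w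
    rw [opUp_good949 B g T₀ n₀ k j (φ₀ a) hnb]
    exact Function.update_of_ne hne _ _

end Fermat.Agent.LT.T7.H949

end
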